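import Mathlib
import Fermat.Agent.S26.Defs

/-!
# S26, package (T) "trace bounds": interface of the sub-leaves (owner: helper52)

`φ : X ⟶ Y` finite étale dominant between integral, locally noetherian, normal schemes,
`F = K(Y)`, `E = K(X)`, `ffMap φ : F →+* E`.  For `U ⊆ Y` affine open, `V = φ⁻¹ U`:
`[E : F] * ell U (m - m₀) ≤ ell V m ≤ [E : F] * ell U (m + m₁)`.

Sub-leaves (all statements about ONE scheme or ONE morphism; no group law):

* `Stmt_FINB`   : finitely many points of codimension one outside a nonempty open;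
* `Stmt_UNIF`   : a uniformiser at a point of codimension one;
* `Stmt_HART`   : Hartogs on an affine open of a normal scheme;
* `Stmt_COH`    : `φ` finite étale: `coheight z' = 1 ↔ coheight (φ z') = 1`;
* `Stmt_ORDE`   : `φ` étale: `ord (φ^* h) z' = ord h (φ z')`;
* `Stmt_LOCFIN` : local finiteness at a point of codimension one of `Y`;
* `Stmt_GLOB`   : basis of `E / F` in `Γ(V)` with a common denominator in `Γ(U)`;
* `Stmt_DEG`    : `[E : F] = φ.finrank (generic point)`;
* `Stmt_FIN`    : `L(m D_U)` is finite-dimensional (input from package (G));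
* `Stmt_TGEN`   : the bounds for `φ`; `Stmt_T` (in `S26/Defs.lean`) is the case `φ = [n]`.
-/

set_option autoImplicit false

open CategoryTheory CategoryTheory.Limits AlgebraicGeometry NeronModelInfra GoodReductionJacobian

universe u

namespace Fermat.Agent.S26.T

section Defs

variable {X Y : Scheme.{u}}

/-- `φ` is dominant, in the form used to define the map of function fields: the image of the
generic point specialises to (hence is) the generic point. -/
def IsDom [IsIntegral X] [IsIntegral Y] (φ : X ⟶ Y) : Prop :=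
  φ (genericPoint X) ⤳ genericPoint Y

/-- The map of function fields `φ^* : K(Y) → K(X)` of a dominant morphism. -/
noncomputable def ffMap [IsIntegral X] [IsIntegral Y] (φ : X ⟶ Y) (hφ : IsDom φ) :
    Y.functionField →+* X.functionField :=
  (Y.presheaf.stalkSpecializes hφ ≫ φ.stalkMap (genericPoint X)).hom

/-- Normality in the form of `Stmt_NOR`: the local rings are integrally closed, and those at the
points of codimension one are discrete valuation rings. -/
def IsNor (X : Scheme.{u}) [IsIntegral X] : Prop :=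
  ∀ z : X, IsIntegrallyClosed (X.presheaf.stalk z) ∧
    (Order.coheight z = 1 → IsDiscreteValuationRing (X.presheaf.stalk z))

end Defs

/-! ## The sub-leaves -/

/-- **FINB**: a nonempty open of a noetherian integral scheme misses only finitely many points of
codimension one. -/
def Stmt_FINB : Prop :=
  ∀ {X : Scheme.{u}} [IsIntegral X] [IsLocallyNoetherian X] [CompactSpace X] (U : X.Opens),
    Nonempty U → {z : X | Order.coheight z = 1 ∧ z ∉ U}.Finite

/-- **UNIF**: a uniformiser at a point of codimension one. -/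
def Stmt_UNIF : Prop :=
  ∀ {X : Scheme.{u}} [IsIntegral X] [IsLocallyNoetherian X] (z : X), Order.coheight z = 1 →
    IsDiscreteValuationRing (X.presheaf.stalk z) →
    ∃ t : X.functionField, t ≠ 0 ∧ Scheme.ord t z = 1

/-- **HART** (Hartogs): on an affine open `U` of a normal scheme, a function without poles at the
points of codimension one of `U` is regular on `U`. -/
def Stmt_HART : Prop :=
  ∀ {X : Scheme.{u}} [IsIntegral X] [IsLocallyNoetherian X], IsNor X →
    ∀ (U : X.Opens) [Nonempty U], IsAffineOpen U → ∀ h : X.functionField,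
      (∀ z : X, Order.coheight z = 1 → z ∈ U → 0 ≤ Scheme.ord h z) →
      h ∈ Set.range (X.germToFunctionField U)

/-- **COH**: a finite étale dominant morphism preserves "codimension one". -/
def Stmt_COH : Prop :=
  ∀ {X Y : Scheme.{u}} [IsIntegral X] [IsIntegral Y] [IsLocallyNoetherian X]
    [IsLocallyNoetherian Y] (φ : X ⟶ Y) [IsFinite φ] [Etale φ], IsDom φ →
    ∀ z' : X, Order.coheight z' = 1 ↔ Order.coheight (φ z') = 1

/-- **ORDE**: an étale morphism is unramified in codimension one:
`ord (φ^* h) z' = ord h (φ z')`. -/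
def Stmt_ORDE : Prop :=
  ∀ {X Y : Scheme.{u}} [IsIntegral X] [IsIntegral Y] [IsLocallyNoetherian X]
    [IsLocallyNoetherian Y] (φ : X ⟶ Y) [IsFinite φ] [Etale φ] (hφ : IsDom φ),
    IsNor X → IsNor Y →
    ∀ z' : X, Order.coheight z' = 1 → Order.coheight (φ z') = 1 →
    ∀ h : Y.functionField, h ≠ 0 → Scheme.ord (ffMap φ hφ h) z' = Scheme.ord h (φ z')

/-- **LOCFIN**: local finiteness at a point `z` of codimension one of `Y`: for linearly independent
`b j`, the coordinates of the functions without poles at the points over `z` have bounded poles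
at `z`. -/
def Stmt_LOCFIN : Prop :=
  ∀ {X Y : Scheme.{u}} [IsIntegral X] [IsIntegral Y] [IsLocallyNoetherian X]
    [IsLocallyNoetherian Y] (φ : X ⟶ Y) [IsFinite φ] [Etale φ] (hφ : IsDom φ),
    IsNor X → IsNor Y → ∀ z : Y, Order.coheight z = 1 →
    ∀ (d : ℕ) (b : Fin d → X.functionField),
      (∀ c : Fin d → Y.functionField, ∑ j, ffMap φ hφ (c j) * b j = 0 → ∀ j, c j = 0) →
      ∃ C : ℤ, ∀ c : Fin d → Y.functionField,
        (∀ z' : X, Order.coheight z' = 1 → φ z' = z →
          0 ≤ Scheme.ord (∑ j, ffMap φ hφ (c j) * b j) z') →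
        ∀ j, c j ≠ 0 → -C ≤ Scheme.ord (c j) z

/-- **GLOB**: for `U ⊆ Y` affine open and `V = φ⁻¹ U`: a basis `b` of `K(X)` over `K(Y)` in
`Γ(V)` and `h ≠ 0` in `Γ(U)` such that `h` times the coordinates of every element of `Γ(V)` are
in `Γ(U)`. -/
def Stmt_GLOB : Prop :=
  ∀ {X Y : Scheme.{u}} [IsIntegral X] [IsIntegral Y] [IsLocallyNoetherian X]
    [IsLocallyNoetherian Y] (φ : X ⟶ Y) [IsFinite φ] (hφ : IsDom φ),
    ∀ (U : Y.Opens) [Nonempty U] [Nonempty (φ ⁻¹ᵁ U)], IsAffineOpen U →
    ∃ (d : ℕ) (b : Fin d → Γ(X, φ ⁻¹ᵁ U)) (h : Γ(Y, U)), h ≠ 0 ∧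
      (∀ x : X.functionField, ∃ c : Fin d → Y.functionField,
        x = ∑ j, ffMap φ hφ (c j) * X.germToFunctionField (φ ⁻¹ᵁ U) (b j)) ∧
      (∀ c : Fin d → Y.functionField,
        ∑ j, ffMap φ hφ (c j) * X.germToFunctionField (φ ⁻¹ᵁ U) (b j) = 0 → ∀ j, c j = 0) ∧
      ∀ (s : Γ(X, φ ⁻¹ᵁ U)) (c : Fin d → Y.functionField),
        X.germToFunctionField (φ ⁻¹ᵁ U) s =
          ∑ j, ffMap φ hφ (c j) * X.germToFunctionField (φ ⁻¹ᵁ U) (b j) →
        ∀ j, Y.germToFunctionField U h * c j ∈ Set.range (Y.germToFunctionField U)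

/-- **DEG**: the degree of the extension of function fields is the rank of the finite flat
morphism at the generic point. -/
def Stmt_DEG : Prop :=
  ∀ {X Y : Scheme.{u}} [IsIntegral X] [IsIntegral Y] (φ : X ⟶ Y) [IsFinite φ] [Flat φ]
    (hφ : IsDom φ),
    letI : Algebra Y.functionField X.functionField := (ffMap φ hφ).toAlgebra
    Module.finrank Y.functionField X.functionField = φ.finrank (genericPoint Y)

/-- **FIN** (input from package (G)): `L(m D_U)` is finite-dimensional. -/
def Stmt_FIN : Prop :=
  ∀ (K : Type u) [Field K] [IsAlgClosed K] {A : Scheme.{u}} (f : A ⟶ Spec (CommRingCat.of K))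
    (L : RelativeGroupLaw K f) (_hc : L.IsCommutative) (_hA : AbelianSchemePropertyBundle K f)
    [IsIntegral A] [IsLocallyNoetherian A]
    (U : A.Opens), IsGoodOpen L U → ∀ m : ℤ,
    letI : Algebra K A.functionField := (constHom f).toAlgebra
    Module.Finite K (Submodule.span K (LU U m))

/-- **TGEN**: the trace bounds for a finite étale dominant morphism `φ : X ⟶ Y` of normal
integral noetherian `K`-schemes and an affine open `U` of `Y` with finite-dimensional
`L(m D_U)`. -/
def Stmt_TGEN : Prop :=
  ∀ (K : Type u) [Field K] {X Y : Scheme.{u}} (fY : Y ⟶ Spec (CommRingCat.of K))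
    [IsIntegral X] [IsIntegral Y] [IsLocallyNoetherian X] [IsLocallyNoetherian Y]
    [CompactSpace X] [CompactSpace Y]
    (φ : X ⟶ Y) [IsFinite φ] [Etale φ] (hφ : IsDom φ), IsNor X → IsNor Y →
    ∀ (U : Y.Opens), IsAffineOpen U → Nonempty U →
    (∀ m : ℤ,
      letI : Algebra K Y.functionField := (constHom fY).toAlgebra
      Module.Finite K (Submodule.span K (LU U m))) →
    letI : Algebra Y.functionField X.functionField := (ffMap φ hφ).toAlgebra
    ∃ m₀ m₁ : ℕ, ∀ m : ℤ,
      Module.finrank Y.functionField X.functionField * ell fY U (m - m₀) ≤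
        ell (φ ≫ fY) (φ ⁻¹ᵁ U) m ∧
      ell (φ ≫ fY) (φ ⁻¹ᵁ U) m ≤
        Module.finrank Y.functionField X.functionField * ell fY U (m + m₁)

end Fermat.Agent.S26.T
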