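import Mathlib
import Fermat.Agent.S26.T.Defs

/-!
# S26, package (T), leaf FINB (helper69)

`stmt_FINB : Stmt_FINB` : a nonempty open `U` of a noetherian integral scheme `X` misses only
finitely many points of codimension one.

Proof: the closed set `X ∖ U` is a finite union of irreducible closed sets `T`; a point `z` of
codimension one outside `U` lies in one of them, `T = closure {t}`, `t ∉ U`; so `t` is not the
generic point of `X`, and `z ≤ t < η` forces `z = t` (codimension one).  Hence `closure {z} = T`,
and `z ↦ closure {z}` is injective.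
-/

set_option autoImplicit false

open CategoryTheory AlgebraicGeometry TopologicalSpace

universe u

namespace Fermat.Agent.S26.T.H69

/-- In an integral scheme, a point `z` of codimension one which specialises from a point `t`
different from the generic point is equal to `t`. -/
theorem eq_of_coheight_one {X : Scheme.{u}} [IsIntegral X] {z t : X}
    (hz : Order.coheight z = 1) (hzt : t ⤳ z) (ht : t ≠ genericPoint X) : z = t := by
  by_contra hne
  -- `z < t < η`
  have h1 : z < t :=
    lt_of_le_not_ge (show z ≤ t from hzt)
      (fun h => hne ((Specializes.antisymm (show z ⤳ t from h) hzt).eq))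
  have h2 : t < genericPoint X :=
    lt_of_le_not_ge (show t ≤ genericPoint X from genericPoint_specializes t)
      (fun h => ht ((Specializes.antisymm (show t ⤳ genericPoint X from h)
        (genericPoint_specializes t)).eq))
  have h3 := Order.coheight_add_one_le h1
  have h4 := Order.coheight_add_one_le h2
  rw [hz] at h3
  -- `coheight t + 1 ≤ 1`, `coheight η + 1 ≤ coheight t`
  have h5 : Order.coheight t = 0 := by
    have : Order.coheight t + 1 ≤ 0 + 1 := by simpa using h3
    exact le_antisymm ((ENat.add_le_add_iff_right (by simp)).mp this) bot_le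
  rw [h5] at h4
  simp at h4

/-- **FINB.** -/
theorem stmt_FINB : Stmt_FINB.{u} := by
  intro X _ _ _ U hU
  have : IsNoetherian X := {}
  have hZ : IsClosed ((U : Set X)ᶜ) := U.isOpen.isClosed_compl
  obtain ⟨S, hSf, hSc, hSi, hSU⟩ := NoetherianSpace.exists_finite_set_isClosed_irreducible hZ
  have hη : genericPoint X ∈ U := by
    obtain ⟨⟨x, hx⟩⟩ := hU
    exact ((genericPoint_spec X).mem_open_set_iff U.isOpen).mpr ⟨x, trivial, hx⟩
  have hinj : Set.InjOn (fun z : X => closure ({z} : Set X)) ((fun z : X => closure ({z} : Set X)) ⁻¹' S) := by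
    intro x _ y _ hxy
    exact (isGenericPoint_def.mpr hxy).eq isGenericPoint_closure
  refine (hSf.preimage hinj).subset ?_
  rintro z ⟨hz, hzU⟩
  have hzZ : z ∈ (U : Set X)ᶜ := hzU
  rw [hSU] at hzZ
  obtain ⟨T, hTS, hzT⟩ := hzZ
  have hT := (hSi T hTS).isGenericPoint_genericPoint (hSc T hTS)
  have htU : (hSi T hTS).genericPoint ∉ U := by
    intro h
    have h1 : (hSi T hTS).genericPoint ∈ (U : Set X)ᶜ := by
      rw [hSU]
      exact ⟨T, hTS, hT.mem⟩
    exact h1 h
  have hne : (hSi T hTS).genericPoint ≠ genericPoint X := by
    intro h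
    rw [h] at htU
    exact htU hη
  have hzt : (hSi T hTS).genericPoint ⤳ z := hT.specializes hzT
  have e := eq_of_coheight_one hz hzt hne
  show closure ({z} : Set X) ∈ S
  rw [e, hT.def]
  exact hTS

end Fermat.Agent.S26.T.H69
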