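import Mathlib
import Fermat.Agent.S26.T.Defs

/-!
# S26, package (T), leaf COH (helper69)

`stmt_COH : Stmt_COH` : an étale morphism `φ : X ⟶ Y` of locally noetherian schemes preserves
the codimension of points: `coheight (φ z') = coheight z'`.

Proof: the stalk map `O_{Y, φ z'} → O_{X, z'}` is a flat local homomorphism of noetherian local
rings (going-down, `Ideal.height_eq_height_add_of_liesOver_of_hasGoingDown`) and it is unramified,
`m_{φ z'} O_{X, z'} = m_{z'}` (`Algebra.FormallyUnramified.map_maximalIdeal`), so that the fibre
has dimension `0`; hence `dim O_{X, z'} = dim O_{Y, φ z'}`.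

* `ringKrullDim_eq_of_flat_of_unramified` : the algebraic core;
* `coheight_eq_of_etale` : `coheight (φ z') = coheight z'` for `φ` étale (no finiteness, no
  integrality, no dominance needed);
* `stmt_COH`.
-/

set_option autoImplicit false
set_option linter.style.haveILetI false

open CategoryTheory AlgebraicGeometry IsLocalRing

universe u

namespace Fermat.Agent.S26.T.H69

/-- A flat unramified local homomorphism of local rings, essentially of finite type, with
noetherian, preserves the Krull dimension. -/
theorem ringKrullDim_eq_of_flat_of_unramified {R S : Type*} [CommRing R] [CommRing S]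
    [Algebra R S] [IsLocalRing R] [IsLocalRing S] [IsLocalHom (algebraMap R S)]
    [IsNoetherianRing R] [IsNoetherianRing S] [Module.Flat R S] [Algebra.FormallyUnramified R S]
    [Algebra.EssFiniteType R S] : ringKrullDim S = ringKrullDim R := by
  have h := Ideal.height_eq_height_add_of_liesOver_of_hasGoingDown (maximalIdeal R)
    (maximalIdeal S)
  have hmap : (maximalIdeal R).map (algebraMap R S) = maximalIdeal S :=
    Algebra.FormallyUnramified.map_maximalIdeal
  have h0 : ((maximalIdeal S).map
      (Ideal.Quotient.mk ((maximalIdeal R).map (algebraMap R S)))).height = 0 := by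
    have e : (maximalIdeal S).map
        (Ideal.Quotient.mk ((maximalIdeal R).map (algebraMap R S))) = ⊥ := by
      rw [Ideal.map_eq_bot_iff_le_ker, Ideal.mk_ker, hmap]
    rw [e]
    haveI : Nontrivial (S ⧸ (maximalIdeal R).map (algebraMap R S)) :=
      Ideal.Quotient.nontrivial_iff.mpr (by
        rw [hmap]
        exact (maximalIdeal.isMaximal S).ne_top)
    exact Ideal.height_bot
  rw [h0, add_zero] at h
  rw [← maximalIdeal_height_eq_ringKrullDim, ← maximalIdeal_height_eq_ringKrullDim, h]

/-- An étale morphism of locally noetherian schemes preserves the codimension of points. -/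
theorem coheight_eq_of_etale {X Y : Scheme.{u}} [IsLocallyNoetherian X]
    [IsLocallyNoetherian Y] (φ : X ⟶ Y) [Etale φ]
    (z' : X) : Order.coheight (φ z') = Order.coheight z' := by
  algebraize [(φ.stalkMap z').hom]
  haveI : IsLocalHom (algebraMap (Y.presheaf.stalk (φ z')) (X.presheaf.stalk z')) :=
    inferInstanceAs <| IsLocalHom (φ.stalkMap z').hom
  haveI : Module.Flat (Y.presheaf.stalk (φ z')) (X.presheaf.stalk z') := by
    have h := Flat.stalkMap φ z'
    rwa [RingHom.Flat] at h
  haveI : Algebra.EssFiniteType (Y.presheaf.stalk (φ z')) (X.presheaf.stalk z') := by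
    rw [← RingHom.essFiniteType_algebraMap, RingHom.algebraMap_toAlgebra]
    exact LocallyOfFiniteType.stalkMap φ z'
  haveI : Algebra.FormallyUnramified (Y.presheaf.stalk (φ z')) (X.presheaf.stalk z') := by
    rw [← RingHom.formallyUnramified_algebraMap, RingHom.algebraMap_toAlgebra]
    exact FormallyUnramified.stalkMap φ z'
  have h := ringKrullDim_eq_of_flat_of_unramified (R := Y.presheaf.stalk (φ z'))
    (S := X.presheaf.stalk z')
  rw [ringKrullDim_stalk_eq_coheight, ringKrullDim_stalk_eq_coheight] at h
  exact (WithBot.coe_injective h).symm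

/-- **COH.** -/
theorem stmt_COH : Stmt_COH.{u} := by
  intro X Y _ _ _ _ φ _ _ _ z'
  rw [coheight_eq_of_etale φ z']

end Fermat.Agent.S26.T.H69
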