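import Mathlib
import Fermat.Agent.S26.T.Defs

/-!
# S26 (T): API of the map of function fields `ffMap` (helper52)

* `ffMap_germ`   : `φ^* (germ_U s) = germ_{φ⁻¹U} (φ.app U s)`;
* `ffMap_stalk`  : compatibility with the stalk maps at every point;
* `isDom_of_surjective`, `isDom_iff`, `nonempty_preimage`;
* `ffMap_constHom` : `φ^* ∘ constHom fY = constHom (φ ≫ fY)`.
-/

set_option autoImplicit false
set_option linter.style.haveILetI false

open CategoryTheory CategoryTheory.Limits AlgebraicGeometry NeronModelInfra GoodReductionJacobian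

universe u

namespace Fermat.Agent.S26.T.H52

variable {X Y : Scheme.{u}} [IsIntegral X] [IsIntegral Y]

/-- `IsDom φ` says that `φ` maps the generic point to the generic point. -/
theorem isDom_iff (φ : X ⟶ Y) : IsDom φ ↔ φ (genericPoint X) = genericPoint Y := by
  constructor
  · intro h
    exact (Specializes.antisymm h (genericPoint_specializes _)).eq
  · intro h
    unfold IsDom
    rw [h]

theorem isDom_of_surjective (φ : X ⟶ Y) [Surjective φ] : IsDom φ := by
  obtain ⟨x, hx⟩ := φ.surjective (genericPoint Y)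
  have h1 : genericPoint X ⤳ x := genericPoint_specializes x
  have h2 : φ (genericPoint X) ⤳ φ x := h1.map φ.continuous
  unfold IsDom
  rwa [hx] at h2

theorem mem_preimage_genericPoint (φ : X ⟶ Y) (hφ : IsDom φ) (U : Y.Opens) [h : Nonempty U] :
    φ (genericPoint X) ∈ U := by
  rw [(isDom_iff φ).1 hφ]
  exact ((genericPoint_spec Y).mem_open_set_iff U.isOpen).mpr (by simpa using h)

theorem nonempty_preimage (φ : X ⟶ Y) (hφ : IsDom φ) (U : Y.Opens) [Nonempty U] :
    Nonempty (φ ⁻¹ᵁ U) :=
  ⟨⟨genericPoint X, mem_preimage_genericPoint φ hφ U⟩⟩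

/-- `φ^* (germ_U s) = germ_{φ⁻¹U} (φ.app U s)`. -/
theorem ffMap_germ (φ : X ⟶ Y) (hφ : IsDom φ) (U : Y.Opens) [Nonempty U]
    [Nonempty (φ ⁻¹ᵁ U)] (s : Γ(Y, U)) :
    ffMap φ hφ (Y.germToFunctionField U s) =
      X.germToFunctionField (φ ⁻¹ᵁ U) (φ.app U s) := by
  have hmem : φ (genericPoint X) ∈ U := mem_preimage_genericPoint φ hφ U
  unfold ffMap Scheme.germToFunctionField
  have h1 := TopCat.Presheaf.germ_stalkSpecializes_apply Y.presheaf
    (((genericPoint_spec Y).mem_open_set_iff U.isOpen).mpr (by simpa using ‹Nonempty U›)) hφ s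
  simp only [CommRingCat.hom_comp, RingHom.coe_comp, Function.comp_apply]
  erw [h1]
  exact Scheme.Hom.germ_stalkMap_apply φ U (genericPoint X) hmem s

/-- Compatibility of `ffMap` with the stalk maps: for `a ∈ 𝒪_{Y, φ z'}`,
`φ^* a = φ.stalkMap z' a` in `K(X)`. -/
theorem ffMap_stalk (φ : X ⟶ Y) (hφ : IsDom φ) (z' : X) (a : Y.presheaf.stalk (φ z')) :
    ffMap φ hφ (algebraMap (Y.presheaf.stalk (φ z')) Y.functionField a) =
      algebraMap (X.presheaf.stalk z') X.functionField (φ.stalkMap z' a) := by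
  have h : genericPoint X ⤳ z' := genericPoint_specializes z'
  have key := Scheme.Hom.stalkSpecializes_stalkMap_apply φ (genericPoint X) z' h a
  have e1 : algebraMap (X.presheaf.stalk z') X.functionField (φ.stalkMap z' a) =
      X.presheaf.stalkSpecializes h (φ.stalkMap z' a) := rfl
  rw [e1, ← key]
  have e2 : algebraMap (Y.presheaf.stalk (φ z')) Y.functionField a =
      Y.presheaf.stalkSpecializes (genericPoint_specializes (φ z')) a := rfl
  rw [e2]
  unfold ffMap
  simp only [CommRingCat.hom_comp, RingHom.coe_comp, Function.comp_apply]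
  erw [TopCat.Presheaf.stalkSpecializes_comp_apply]

section Const

variable {K : Type u} [Field K]

/-- `φ^* ∘ constHom fY = constHom (φ ≫ fY)`. -/
theorem ffMap_constHom (fY : Y ⟶ Spec (CommRingCat.of K)) (φ : X ⟶ Y) (hφ : IsDom φ) (c : K) :
    ffMap φ hφ (constHom fY c) = constHom (φ ≫ fY) c := by
  haveI : Nonempty (⊤ : Y.Opens) := ⟨⟨Classical.arbitrary Y, trivial⟩⟩
  haveI : Nonempty (⊤ : X.Opens) := ⟨⟨Classical.arbitrary X, trivial⟩⟩
  haveI : Nonempty (φ ⁻¹ᵁ (⊤ : Y.Opens)) := ⟨⟨Classical.arbitrary X, trivial⟩⟩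
  unfold constHom
  simp only [RingHom.coe_comp, Function.comp_apply]
  erw [ffMap_germ φ hφ ⊤]
  rfl

end Const

end Fermat.Agent.S26.T.H52
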