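import Mathlib
import Fermat.Agent.S26.T.Defs

/-!
# S26, package (T), leaf ORDE: an étale morphism is unramified in codimension one

`ord (φ^* h) z' = ord h (φ z')` for `φ : X ⟶ Y` étale (only "formally unramified and locally of
finite type" is used), `z'` of codimension one with `φ z'` of codimension one, both local rings
discrete valuation rings.

* `ordFrac_map` : the abstract statement for a local homomorphism of discrete valuation rings
  `ψ : R → S` with `𝔪_R S = 𝔪_S` and a compatible homomorphism of the fraction fields;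
* `ffMap_algebraMap` : `φ^*` on `K(Y)` restricted to `O_{Y, φ z'}` is the stalk map;
* `ordHom_ffMap`, `ord_ffMap` : the statement for schemes;
* `stmt_ORDE : Stmt_ORDE`.
-/

set_option autoImplicit false

open CategoryTheory CategoryTheory.Limits AlgebraicGeometry

universe u

namespace Fermat.Agent.S26.T.H55

section Abstract

variable {R S F E : Type*} [CommRing R] [CommRing S] [IsDomain R] [IsDomain S]
  [IsDiscreteValuationRing R] [IsDiscreteValuationRing S]
  [Field F] [Field E] [Algebra R F] [Algebra S E] [IsFractionRing R F] [IsFractionRing S E]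

/-- A homomorphism of discrete valuation rings with `𝔪_R S = 𝔪_S` maps uniformisers to
uniformisers. -/
theorem irreducible_map_of_map_maximalIdeal (ψ : R →+* S)
    (hmax : (IsLocalRing.maximalIdeal R).map ψ = IsLocalRing.maximalIdeal S)
    {ϖ : R} (hϖ : Irreducible ϖ) : Irreducible (ψ ϖ) := by
  rw [IsDiscreteValuationRing.irreducible_iff_uniformizer, ← hmax,
    (IsDiscreteValuationRing.irreducible_iff_uniformizer ϖ).mp hϖ, Ideal.map_span,
    Set.image_singleton]

/-- The order of vanishing of the image of an element of `R`. -/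
theorem ordFrac_map_algebraMap (ψ : R →+* S) (Ψ : F →+* E)
    (hcomm : ∀ r, Ψ (algebraMap R F r) = algebraMap S E (ψ r))
    (hmax : (IsLocalRing.maximalIdeal R).map ψ = IsLocalRing.maximalIdeal S)
    (r : R) (hr : r ≠ 0) :
    Ring.ordFrac S (Ψ (algebraMap R F r)) = Ring.ordFrac R (algebraMap R F r) := by
  obtain ⟨ϖ, hϖ⟩ := IsDiscreteValuationRing.exists_irreducible R
  obtain ⟨n, u, rfl⟩ := IsDiscreteValuationRing.eq_unit_mul_pow_irreducible hr hϖ
  have hψϖ : Irreducible (ψ ϖ) := irreducible_map_of_map_maximalIdeal ψ hmax hϖ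
  have hu : IsUnit (ψ (u : R)) := u.isUnit.map ψ
  rw [hcomm]
  simp only [map_mul, map_pow]
  rw [Ring.ordFrac_of_isUnit hu, Ring.ordFrac_irreducible hψϖ, Ring.ordFrac_of_isUnit u.isUnit,
    Ring.ordFrac_irreducible hϖ]

/-- **Unramified extensions of discrete valuation rings preserve the order of vanishing.** -/
theorem ordFrac_map (ψ : R →+* S) (Ψ : F →+* E)
    (hcomm : ∀ r, Ψ (algebraMap R F r) = algebraMap S E (ψ r))
    (hmax : (IsLocalRing.maximalIdeal R).map ψ = IsLocalRing.maximalIdeal S) (h : F) :
    Ring.ordFrac S (Ψ h) = Ring.ordFrac R h := by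
  obtain ⟨a, b, hb, rfl⟩ := IsFractionRing.div_surjective (A := R) h
  by_cases ha : a = 0
  · simp [ha]
  have hb0 : b ≠ 0 := nonZeroDivisors.ne_zero hb
  rw [map_div₀, map_div₀, map_div₀, ordFrac_map_algebraMap ψ Ψ hcomm hmax a ha,
    ordFrac_map_algebraMap ψ Ψ hcomm hmax b hb0]

end Abstract

section Scheme

variable {X Y : Scheme.{u}} [IsIntegral X] [IsIntegral Y]

/-- `φ^*` on `K(Y)`, restricted to the local ring at `φ z'`, is the stalk map at `z'`. -/
theorem ffMap_algebraMap (φ : X ⟶ Y) (hφ : IsDom φ) (z' : X) (r : Y.presheaf.stalk (φ z')) :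
    ffMap φ hφ (algebraMap (Y.presheaf.stalk (φ z')) Y.functionField r) =
      algebraMap (X.presheaf.stalk z') X.functionField ((φ.stalkMap z').hom r) := by
  have hz : genericPoint X ⤳ z' := (genericPoint_spec X).specializes trivial
  have h1 : Y.presheaf.stalkSpecializes ((genericPoint_spec Y).specializes trivial) ≫
      (Y.presheaf.stalkSpecializes hφ ≫ φ.stalkMap (genericPoint X)) =
      φ.stalkMap z' ≫ X.presheaf.stalkSpecializes hz := by
    rw [← Category.assoc, TopCat.Presheaf.stalkSpecializes_comp,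
      ← Scheme.Hom.stalkSpecializes_stalkMap φ (genericPoint X) z' hz]
  exact DFunLike.congr_fun (CommRingCat.hom_ext_iff.mp h1) r

/-- The maximal ideal of the local ring at `φ z'` generates the maximal ideal at `z'`. -/
theorem map_maximalIdeal_stalkMap (φ : X ⟶ Y) [FormallyUnramified φ] [LocallyOfFiniteType φ]
    (z' : X) :
    (IsLocalRing.maximalIdeal (Y.presheaf.stalk (φ z'))).map (φ.stalkMap z').hom =
      IsLocalRing.maximalIdeal (X.presheaf.stalk z') := by
  algebraize [(φ.stalkMap z').hom]
  have : IsLocalHom (algebraMap (Y.presheaf.stalk (φ z')) (X.presheaf.stalk z')) :=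
    inferInstanceAs <| IsLocalHom (φ.stalkMap z').hom
  have : Algebra.EssFiniteType (Y.presheaf.stalk (φ z')) (X.presheaf.stalk z') := by
    rw [← RingHom.essFiniteType_algebraMap, RingHom.algebraMap_toAlgebra]
    exact LocallyOfFiniteType.stalkMap φ z'
  have : Algebra.FormallyUnramified (Y.presheaf.stalk (φ z')) (X.presheaf.stalk z') := by
    rw [← RingHom.formallyUnramified_algebraMap, RingHom.algebraMap_toAlgebra]
    exact FormallyUnramified.stalkMap φ z'
  exact Algebra.FormallyUnramified.map_maximalIdeal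

variable [IsLocallyNoetherian X] [IsLocallyNoetherian Y]

/-- The order homomorphisms at `z'` and `φ z'` correspond under `φ^*`. -/
theorem ordHom_ffMap (φ : X ⟶ Y) [FormallyUnramified φ] [LocallyOfFiniteType φ]
    (hφ : IsDom φ) (z' : X) (hz' : Order.coheight z' = 1) (hz : Order.coheight (φ z') = 1)
    (hS : IsDiscreteValuationRing (X.presheaf.stalk z'))
    (hR : IsDiscreteValuationRing (Y.presheaf.stalk (φ z'))) (h : Y.functionField) :
    X.ordHom z' hz' (ffMap φ hφ h) = Y.ordHom (φ z') hz h :=
  ordFrac_map (φ.stalkMap z').hom (ffMap φ hφ) (ffMap_algebraMap φ hφ z')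
    (map_maximalIdeal_stalkMap φ z') h

/-- `ord (φ^* h) z' = ord h (φ z')`. -/
theorem ord_ffMap (φ : X ⟶ Y) [FormallyUnramified φ] [LocallyOfFiniteType φ]
    (hφ : IsDom φ) (z' : X) (hz' : Order.coheight z' = 1) (hz : Order.coheight (φ z') = 1)
    (hS : IsDiscreteValuationRing (X.presheaf.stalk z'))
    (hR : IsDiscreteValuationRing (Y.presheaf.stalk (φ z'))) (h : Y.functionField) :
    Scheme.ord (ffMap φ hφ h) z' = Scheme.ord h (φ z') := by
  rw [Scheme.ord_eq_ordHom_of_coheight_eq_one hz', Scheme.ord_eq_ordHom_of_coheight_eq_one hz,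
    ordHom_ffMap φ hφ z' hz' hz hS hR h]

end Scheme

/-- **ORDE**: an étale morphism is unramified in codimension one. -/
theorem stmt_ORDE : Stmt_ORDE.{u} := by
  intro X Y _ _ _ _ φ _ _ hφ hX hY z' hz' hz h _
  exact ord_ffMap φ hφ z' hz' hz ((hX z').2 hz') ((hY (φ z')).2 hz) h

end Fermat.Agent.S26.T.H55
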