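import Fermat.Agent.S26.T.Defs

/-!
# S26, package (T), leaf FINB (helper25)

A nonempty open `U` of a noetherian integral scheme `X` misses only finitely many points of
codimension one: such a point is the generic point of an irreducible component of the closed set
`X \ U`.

* `finite_coheight_one_not_mem` : topological form (quasi-sober `T₀` noetherian space with a
  point `η ∈ U` specialising to every point);
* `stmt_FINB : Stmt_FINB`.

Complete proofs, standard axioms only.
-/

set_option autoImplicit false

open TopologicalSpace AlgebraicGeometry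

universe u

namespace Fermat.Agent.S26.T.H25

/-- Topological core of FINB. The order on `X` is the specialisation order
(`x ≤ y ↔ y ⤳ x`). -/
theorem finite_coheight_one_not_mem {X : Type*} [TopologicalSpace X] [NoetherianSpace X]
    [QuasiSober X] [T0Space X] (U : Set X) (hU : IsOpen U) (η : X) (hηU : η ∈ U)
    (hη : ∀ x : X, η ⤳ x) :
    letI : Preorder X := specializationPreorder X
    {z : X | Order.coheight z = 1 ∧ z ∉ U}.Finite := by
  let _ : Preorder X := specializationPreorder X
  obtain ⟨S, hSfin, hSirr, hS⟩ :=
    NoetherianSpace.exists_finite_set_closeds_irreducible (⟨Uᶜ, hU.isClosed_compl⟩ : Closeds X)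
  -- the generic points of the members of `S`
  classical
  let gp : Closeds X → X := fun C =>
    if h : IsIrreducible (C : Set X) then h.genericPoint else η
  refine (hSfin.image gp).subset ?_
  rintro z ⟨hz1, hzU⟩
  have hzc : closure ({z} : Set X) ⊆ Uᶜ :=
    hU.isClosed_compl.closure_subset_iff.2 (Set.singleton_subset_iff.2 hzU)
  have hcov : closure ({z} : Set X) ⊆ ⋃₀ ((fun C : Closeds X => (C : Set X)) '' S) := by
    intro x hx
    have hx' : x ∈ ((⟨Uᶜ, hU.isClosed_compl⟩ : Closeds X) : Set X) := hzc hx
    rw [hS] at hx'
    lift S to Finset (Closeds X) using hSfin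
    rw [← Finset.sup_id_eq_sSup, Closeds.coe_finset_sup] at hx'
    simp only [Finset.mem_coe, Set.mem_sUnion, Set.mem_image, exists_exists_and_eq_and]
    simpa using hx'
  have hirr : IsIrreducible (closure ({z} : Set X)) := isIrreducible_singleton.closure
  obtain ⟨t, ht, hzt⟩ := isIrreducible_iff_sUnion_isClosed.1 hirr
    ((hSfin.image (fun C : Closeds X => (C : Set X))).toFinset)
    (by
      intro t ht
      rw [Set.Finite.mem_toFinset] at ht
      obtain ⟨C, _, rfl⟩ := ht
      exact C.isClosed)
    (by simpa using hcov)
  rw [Set.Finite.mem_toFinset] at ht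
  obtain ⟨C, hCS, rfl⟩ := ht
  refine ⟨C, hCS, ?_⟩
  have hCirr : IsIrreducible (C : Set X) := hSirr C hCS
  have hgp : gp C = hCirr.genericPoint := dif_pos hCirr
  rw [hgp]
  set c := hCirr.genericPoint with hc
  have hcspec : IsGenericPoint c (C : Set X) := hCirr.isGenericPoint_genericPoint C.isClosed
  -- `c ⤳ z`
  have hcz : c ⤳ z := by
    rw [specializes_iff_mem_closure, hcspec.def]
    exact hzt (subset_closure (Set.mem_singleton z))
  -- `c ∉ U`
  have hcC : c ∈ (C : Set X) := by
    rw [← hcspec.def]
    exact subset_closure (Set.mem_singleton c)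
  have hCU : (C : Set X) ⊆ Uᶜ := by
    intro x hx
    have : x ∈ ((sSup S : Closeds X) : Set X) := by
      have hle : C ≤ sSup S := le_sSup hCS
      exact hle hx
    rw [← hS] at this
    exact this
  have hcU : c ∉ U := hCU hcC
  by_contra hne
  -- `z < c < η`
  have hzc' : z < c := by
    refine ⟨hcz, fun h => hne ?_⟩
    exact ((hcz.antisymm h)).eq
  have hcη : c < η := by
    refine ⟨hη c, fun h => hcU ?_⟩
    have : c = η := ((hη c).antisymm h).eq.symm
    rw [this]
    exact hηU
  have h1 : Order.coheight c + 1 ≤ Order.coheight z := Order.coheight_add_one_le hzc'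
  have h2 : Order.coheight η + 1 ≤ Order.coheight c := Order.coheight_add_one_le hcη
  rw [hz1] at h1
  have h3 : (1 : ℕ∞) ≤ Order.coheight c := le_trans (le_add_self) h2
  have h4 : (1 : ℕ∞) + 1 ≤ 1 := le_trans (add_le_add_left h3 1) h1
  exact absurd h4 (by decide)

/-- **FINB**: a nonempty open of a noetherian integral scheme misses only finitely many points of
codimension one. -/
theorem stmt_FINB : Stmt_FINB.{u} := by
  intro X _ _ _ U hU
  have : IsNoetherian X := {}
  obtain ⟨x⟩ := hU
  have hηU : genericPoint X ∈ (U : Set X) := by
    have hspec : genericPoint X ⤳ x.1 := genericPoint_specializes x.1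
    exact hspec.mem_open U.isOpen x.2
  exact finite_coheight_one_not_mem (U : Set X) U.isOpen (genericPoint X) hηU
    (fun y => genericPoint_specializes y)

end Fermat.Agent.S26.T.H25
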