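import Mathlib
import Fermat.Agent.S26.T.Defs
import Fermat.Agent.S26.H52_TCore

/-!
# S26 (T): interface of the basic facts on `Scheme.ord` (ORDB), owner of the package: helper52

* `Stmt_ORD1`   : `Scheme.ord · z` is an order function (`H52.OrdLike`) at a DVR point;
* `Stmt_REG`    : regular functions have no poles;
* `Stmt_DVRMEM` : `0 ≤ ord h z` at a DVR point `z` ⇒ `h` is in the local ring at `z`;
* `Stmt_CONST`  : nonzero constants have order `0`;
* `Stmt_LIN`    : `LU U m` is a `K`-subspace.
-/

set_option autoImplicit false

open CategoryTheory CategoryTheory.Limits AlgebraicGeometry NeronModelInfra GoodReductionJacobian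

universe u

namespace Fermat.Agent.S26.T

/-- **ORD1**: at a point of codimension one with DVR local ring, `h ↦ Scheme.ord h z` is an order
function. -/
def Stmt_ORD1 : Prop :=
  ∀ {X : Scheme.{u}} [IsIntegral X] [IsLocallyNoetherian X] (z : X), Order.coheight z = 1 →
    IsDiscreteValuationRing (X.presheaf.stalk z) →
    H52.OrdLike (fun h : X.functionField => Scheme.ord h z)

/-- **REG**: a regular function on `U` has no pole at the points of `U`. -/
def Stmt_REG : Prop :=
  ∀ {X : Scheme.{u}} [IsIntegral X] [IsLocallyNoetherian X] (U : X.Opens) [Nonempty U]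
    (s : Γ(X, U)) (z : X), z ∈ U → 0 ≤ Scheme.ord (X.germToFunctionField U s) z

/-- **DVRMEM**: at a point of codimension one with DVR local ring, a function without pole is in
the local ring. -/
def Stmt_DVRMEM : Prop :=
  ∀ {X : Scheme.{u}} [IsIntegral X] [IsLocallyNoetherian X] (z : X), Order.coheight z = 1 →
    IsDiscreteValuationRing (X.presheaf.stalk z) →
    ∀ h : X.functionField, 0 ≤ Scheme.ord h z →
      h ∈ Set.range (algebraMap (X.presheaf.stalk z) X.functionField)

/-- **CONST**: nonzero constants have order `0` everywhere. -/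
def Stmt_CONST : Prop :=
  ∀ (K : Type u) [Field K] {X : Scheme.{u}} (f : X ⟶ Spec (CommRingCat.of K))
    [IsIntegral X] [IsLocallyNoetherian X] (c : K), c ≠ 0 → ∀ z : X,
    Scheme.ord (constHom f c) z = 0

/-- **LIN**: `LU U m` is a `K`-subspace of the function field. -/
def Stmt_LIN : Prop :=
  ∀ (K : Type u) [Field K] {X : Scheme.{u}} (f : X ⟶ Spec (CommRingCat.of K))
    [IsIntegral X] [IsLocallyNoetherian X], IsNor X → ∀ (U : X.Opens) (m : ℤ),
    letI : Algebra K X.functionField := (constHom f).toAlgebra
    ∃ S : Submodule K X.functionField, (S : Set X.functionField) = LU U m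

end Fermat.Agent.S26.T
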