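import Mathlib
import Fermat.Agent.S26.T.DefsB

/-!
# S26, package (T), leaves ORD1, REG, DVRMEM (helper61)

* `stmt_ORD1`   : `Scheme.ord · z` is an order function at a DVR point of codimension one;
* `stmt_REG`    : regular functions have no poles;
* `stmt_DVRMEM` : `0 ≤ ord h z` at a DVR point `z` of codimension one ⇒ `h` is in the local ring.
-/

set_option autoImplicit false

open CategoryTheory CategoryTheory.Limits AlgebraicGeometry

universe u

namespace Fermat.Agent.S26.T.H61

/-- **ORD1**. -/
theorem stmt_ORD1 : Stmt_ORD1.{u} := by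
  intro X _ _ z _ hdvr
  have := hdvr
  exact ⟨fun f g hf hg => Scheme.ord_mul hf hg, fun f g _ _ hfg => Scheme.ord_add hfg⟩

/-- the order of `1` is `0` -/
theorem ord_one {X : Scheme.{u}} [IsIntegral X] [IsLocallyNoetherian X] (z : X) :
    Scheme.ord (1 : X.functionField) z = 0 := by
  have h := Scheme.ord_mul (x := z) (one_ne_zero (α := X.functionField))
    (one_ne_zero (α := X.functionField))
  rw [mul_one] at h
  linarith

/-- **REG**. -/
theorem stmt_REG : Stmt_REG.{u} := by
  intro X _ _ U _ s z hz
  by_cases hs : s = 0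
  · subst hs
    rw [map_zero, Scheme.ord_zero]
    rfl
  have h := Scheme.ord_le_smul hz hs (1 : X.functionField)
  rw [ord_one, Algebra.smul_def, mul_one] at h
  exact h

/-- **DVRMEM**. -/
theorem stmt_DVRMEM : Stmt_DVRMEM.{u} := by
  intro X _ _ z hz hdvr h hh
  have := hdvr
  by_cases h0 : h = 0
  · exact ⟨0, by rw [h0, map_zero]⟩
  rw [Scheme.le_ord_iff hz h0] at hh
  have hval : (IsDiscreteValuationRing.maximalIdeal (X.presheaf.stalk z)).valuation
      X.functionField h ≤ 1 := by
    have h1 : Scheme.ordHom z hz h =
        ((IsDiscreteValuationRing.maximalIdeal (X.presheaf.stalk z)).valuation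
          X.functionField h)⁻¹ := by
      unfold Scheme.ordHom
      exact Ring.ordFrac_eq_valuation_inv h
    rw [h1] at hh
    have hne : (IsDiscreteValuationRing.maximalIdeal (X.presheaf.stalk z)).valuation
        X.functionField h ≠ 0 := by
      rw [Valuation.ne_zero_iff]
      exact h0
    have h2 : (1 : WithZero (Multiplicative ℤ)) ≤
        ((IsDiscreteValuationRing.maximalIdeal (X.presheaf.stalk z)).valuation
          X.functionField h)⁻¹ := by
      simpa using hh
    exact (one_le_inv₀ (zero_lt_iff.mpr hne)).mp h2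
  obtain ⟨a, ha⟩ := IsDiscreteValuationRing.exists_lift_of_le_one hval
  exact ⟨a, ha⟩

end Fermat.Agent.S26.T.H61
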