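import Mathlib
import Fermat.Agent.S26.T.DefsB
import Fermat.Agent.S26.T.H61_OrdB
import Fermat.Agent.S26.G.H90_Hartogs

/-!
# S26, package (T), leaf HART (helper85)

Hartogs on an affine open `U` of a normal (integral, locally noetherian) scheme: a rational function
without poles at the points of codimension one of `U` is a section over `U`.

Inputs: `G.H90.hartogs` (commutative algebra: a noetherian integrally closed domain is the
intersection of its localisations at the primes of height one) and `H61.stmt_DVRMEM`
(`0 ≤ ord h z` at a DVR point ⇒ `h` lies in the local ring).  This file is the scheme bridge: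
`Γ(X, U)` is a noetherian integrally closed domain with fraction field `K(X)`, the primes of
height one are the points of codimension one of `U`, and the local rings are the localisations.
-/

set_option autoImplicit false

open CategoryTheory CategoryTheory.Limits AlgebraicGeometry

universe u

namespace Fermat.Agent.S26.T.H85

/-- the point of `U` attached to a prime of `Γ(X, U)` lies in `U` -/
theorem fromSpec_mem_h85 {X : Scheme.{u}} {U : X.Opens} (hU : IsAffineOpen U)
    (y : PrimeSpectrum Γ(X, U)) : hU.fromSpec y ∈ U := by
  have h : hU.fromSpec y ∈ Set.range hU.fromSpec := ⟨y, rfl⟩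
  rw [hU.range_fromSpec] at h
  exact h

/-- a point attached to a prime of height one has codimension one -/
theorem coheight_fromSpec_h85 {X : Scheme.{u}} {U : X.Opens} (hU : IsAffineOpen U)
    (y : PrimeSpectrum Γ(X, U)) (hht : y.asIdeal.height = 1) :
    Order.coheight (hU.fromSpec y) = 1 := by
  let _ := TopCat.Presheaf.algebra_section_stalk X.presheaf
    ⟨hU.fromSpec y, fromSpec_mem_h85 hU y⟩
  have : IsLocalization.AtPrime (X.presheaf.stalk (hU.fromSpec y)) y.asIdeal :=
    hU.isLocalization_stalk' y (fromSpec_mem_h85 hU y)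
  have h1 := ringKrullDim_stalk_eq_coheight (hU.fromSpec y)
  have h2 := IsLocalization.AtPrime.ringKrullDim_eq_height y.asIdeal
    (X.presheaf.stalk (hU.fromSpec y))
  rw [h2, hht] at h1
  exact_mod_cast h1.symm

/-- the ring of sections over an affine open of a normal scheme is integrally closed -/
theorem isIntegrallyClosed_h85 {X : Scheme.{u}} [IsIntegral X] (hN : IsNor X)
    (U : X.Opens) [Nonempty U] (hU : IsAffineOpen U) : IsIntegrallyClosed Γ(X, U) := by
  refine IsIntegrallyClosed.of_localization_maximal (fun P _ hP => ?_)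
  let y : PrimeSpectrum Γ(X, U) := ⟨P, hP.isPrime⟩
  let _ := TopCat.Presheaf.algebra_section_stalk X.presheaf
    ⟨hU.fromSpec y, fromSpec_mem_h85 hU y⟩
  have : IsLocalization.AtPrime (X.presheaf.stalk (hU.fromSpec y)) P :=
    hU.isLocalization_stalk' y (fromSpec_mem_h85 hU y)
  have := (hN (hU.fromSpec y)).1
  exact IsIntegrallyClosed.of_equiv (IsLocalization.algEquiv P.primeCompl
    (X.presheaf.stalk (hU.fromSpec y)) (Localization.AtPrime P)).toRingEquiv

/-- **HART**. -/
theorem stmt_HART : Stmt_HART.{u} := by
  intro X _ _ hN U _ hU h hord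
  have : IsNoetherianRing Γ(X, U) := IsLocallyNoetherian.component_noetherian ⟨U, hU⟩
  have : IsFractionRing Γ(X, U) X.functionField :=
    functionField_isFractionRing_of_isAffineOpen X U hU
  have : IsIntegrallyClosed Γ(X, U) := isIntegrallyClosed_h85 hN U hU
  obtain ⟨r, hr⟩ := G.H90.hartogs (R := Γ(X, U)) (K := X.functionField) h (by
    intro P hP hht
    let y : PrimeSpectrum Γ(X, U) := ⟨P, hP⟩
    have hzU : hU.fromSpec y ∈ U := fromSpec_mem_h85 hU y
    have hco : Order.coheight (hU.fromSpec y) = 1 := coheight_fromSpec_h85 hU y hht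
    have hdvr := (hN (hU.fromSpec y)).2 hco
    obtain ⟨a, ha⟩ := H61.stmt_DVRMEM (hU.fromSpec y) hco hdvr h (hord _ hco hzU)
    let _ := TopCat.Presheaf.algebra_section_stalk X.presheaf ⟨hU.fromSpec y, hzU⟩
    have : IsLocalization.AtPrime (X.presheaf.stalk (hU.fromSpec y)) P :=
      hU.isLocalization_stalk' y hzU
    obtain ⟨⟨r, s⟩, hrs⟩ := IsLocalization.surj P.primeCompl a
    refine ⟨r, s, s.2, ?_⟩
    have hh := congrArg (algebraMap (X.presheaf.stalk (hU.fromSpec y)) X.functionField) hrs
    rw [map_mul, ha] at hh
    have e1 : ∀ t : Γ(X, U), algebraMap (X.presheaf.stalk (hU.fromSpec y)) X.functionField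
        (algebraMap Γ(X, U) (X.presheaf.stalk (hU.fromSpec y)) t) =
        algebraMap Γ(X, U) X.functionField t := fun t =>
      Scheme.algebraMap_germ_eq_germToFunctionField X hzU t
    rw [e1, e1] at hh
    exact hh)
  exact ⟨r, hr⟩

end Fermat.Agent.S26.T.H85
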