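import Fermat.Agent.S26.T.Defs

/-!
# S26, package (T), leaf DEG (helper25)

`φ : X ⟶ Y` finite flat dominant between integral schemes: the degree of the extension of function
fields `K(X) / K(Y)` is the rank of `φ` at the generic point of `Y`.

* `isPullback_fromSpec_chart` : the affine chart square of an affine morphism is a pullback;
* `finrank_chart` : `φ.finrank (hU.fromSpec y) = (φ.app U).hom.finrank y`;
* `rankAtStalk_bot` : over a domain the rank at the generic point is the rank;
* `ffMap_germToFunctionField` : `ffMap φ ∘ germ_U = germ_{φ⁻¹U} ∘ φ.app U`;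
* `stmt_DEG : Stmt_DEG`.

Complete proofs, standard axioms only.
-/

set_option autoImplicit false

open CategoryTheory CategoryTheory.Limits AlgebraicGeometry

universe u

namespace Fermat.Agent.S26.T.H25D

open nonZeroDivisors in
/-- Over a domain, the rank at the generic point is the rank. -/
theorem rankAtStalk_bot {R : Type*} [CommRing R] [IsDomain R] (M : Type*) [AddCommGroup M]
    [Module R M] (p : PrimeSpectrum R) (hp : p.asIdeal = ⊥) :
    Module.rankAtStalk M p = Module.finrank R M := by
  have hle : p.asIdeal.primeCompl ≤ R⁰ := by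
    intro x hx
    have hx' : x ∉ p.asIdeal := hx
    rw [hp] at hx'
    exact mem_nonZeroDivisors_of_ne_zero (fun h => hx' (by rw [h]; exact Submodule.zero_mem _))
  unfold Module.rankAtStalk
  rw [IsLocalization.finrank_eq (Localization.AtPrime p.asIdeal) p.asIdeal.primeCompl hle,
    IsLocalizedModule.finrank_eq p.asIdeal.primeCompl
      (LocalizedModule.mkLinearMap p.asIdeal.primeCompl M) hle]

variable {X Y : Scheme.{u}}

/-- Compatibility of the map of function fields with the maps on sections. -/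
theorem ffMap_germToFunctionField [IsIntegral X] [IsIntegral Y] (φ : X ⟶ Y) (hφ : IsDom φ)
    (U : Y.Opens) [Nonempty U] [Nonempty (φ ⁻¹ᵁ U)] (r : Γ(Y, U)) :
    ffMap φ hφ (Y.germToFunctionField U r) =
      X.germToFunctionField (φ ⁻¹ᵁ U) (φ.app U r) := by
  have hη : genericPoint Y ∈ U :=
    ((genericPoint_spec Y).mem_open_set_iff U.isOpen).mpr (by simpa using ‹Nonempty U›)
  have hφ' : φ (genericPoint X) ⤳ genericPoint Y := hφ
  have hφη : φ (genericPoint X) ∈ U := hφ'.mem_open U.isOpen hη
  have h1 : Y.germToFunctionField U ≫ Y.presheaf.stalkSpecializes hφ' ≫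
      φ.stalkMap (genericPoint X) = φ.app U ≫ X.germToFunctionField (φ ⁻¹ᵁ U) := by
    unfold Scheme.germToFunctionField
    rw [← Category.assoc, TopCat.Presheaf.germ_stalkSpecializes]
    exact Scheme.Hom.germ_stalkMap φ U (genericPoint X) hφη
  have h2 := congrArg (fun f => f.hom r) h1
  exact h2

/-- The affine chart square of an affine morphism is a pullback square. -/
theorem isPullback_fromSpec_chart (φ : X ⟶ Y) [IsAffineHom φ] {U : Y.Opens}
    (hU : IsAffineOpen U) :
    IsPullback (hU.preimage φ).fromSpec (Spec.map (φ.app U)) φ hU.fromSpec := by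
  refine (IsOpenImmersion.isPullback (Spec.map (φ.app U)) (hU.preimage φ).fromSpec hU.fromSpec φ
    ?_ ?_).flip
  · rw [Scheme.Hom.app_eq_appLE]
    exact (IsAffineOpen.SpecMap_appLE_fromSpec φ hU (hU.preimage φ) le_rfl).symm
  · rw [IsAffineOpen.opensRange_fromSpec, IsAffineOpen.opensRange_fromSpec]

/-- The rank of a finite flat morphism at a point of an affine chart. -/
theorem finrank_chart (φ : X ⟶ Y) [IsFinite φ] [Flat φ] {U : Y.Opens} (hU : IsAffineOpen U)
    (y : Spec Γ(Y, U)) :
    φ.finrank (hU.fromSpec y) = (φ.app U).hom.finrank y := by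
  have hflat : (φ.app U).hom.Flat := by
    rw [Scheme.Hom.app_eq_appLE]
    exact φ.flat_appLE hU (hU.preimage φ) le_rfl
  rw [← Scheme.Hom.finrank_of_isPullback _ _ _ _ (isPullback_fromSpec_chart φ hU) y,
    Scheme.Hom.finrank_SpecMap_eq_finrank (φ.finite_app U hU) hflat]

/-- **DEG**: the degree of the extension of function fields is the rank of the finite flat
morphism at the generic point. -/
theorem stmt_DEG : Stmt_DEG.{u} := by
  intro X Y _ _ φ _ _ hφ
  obtain ⟨U, hU, hηU⟩ : ∃ U : Y.Opens, IsAffineOpen U ∧ genericPoint Y ∈ U := by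
    obtain ⟨_, ⟨W, hW, rfl⟩, hηW, -⟩ :=
      Y.isBasis_affineOpens.exists_subset_of_mem_open (Set.mem_univ (genericPoint Y))
        isOpen_univ
    exact ⟨W, hW, hηW⟩
  have : Nonempty U := ⟨⟨_, hηU⟩⟩
  have hφ' : φ (genericPoint X) ⤳ genericPoint Y := hφ
  have : Nonempty (φ ⁻¹ᵁ U) := ⟨⟨genericPoint X, hφ'.mem_open U.isOpen hηU⟩⟩
  have hV : IsAffineOpen (φ ⁻¹ᵁ U) := hU.preimage φ
  let : Algebra Y.functionField X.functionField := (ffMap φ hφ).toAlgebra
  let algRA : Algebra Γ(Y, U) Γ(X, φ ⁻¹ᵁ U) := (φ.app U).hom.toAlgebra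
  let algRL : Algebra Γ(Y, U) X.functionField :=
    ((algebraMap Γ(X, φ ⁻¹ᵁ U) X.functionField).comp
      (algebraMap Γ(Y, U) Γ(X, φ ⁻¹ᵁ U))).toAlgebra
  have : IsScalarTower Γ(Y, U) Γ(X, φ ⁻¹ᵁ U) X.functionField :=
    IsScalarTower.of_algebraMap_eq (fun _ => rfl)
  have : IsScalarTower Γ(Y, U) Y.functionField X.functionField :=
    IsScalarTower.of_algebraMap_eq (fun r => (ffMap_germToFunctionField φ hφ U r).symm)
  have := functionField_isFractionRing_of_isAffineOpen (X := Y) U hU
  have := functionField_isFractionRing_of_isAffineOpen (X := X) (φ ⁻¹ᵁ U) hV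
  have hgen : hU.fromSpec (genericPoint (Spec Γ(Y, U))) = genericPoint Y :=
    genericPoint_eq_of_isOpenImmersion hU.fromSpec
  have hbot : (genericPoint (Spec Γ(Y, U))).asIdeal = ⊥ := by
    rw [genericPoint_eq_bot_of_affine]
    rfl
  rw [IsFractionRing.finrank_eq Γ(Y, U) Y.functionField Γ(X, φ ⁻¹ᵁ U) X.functionField,
    ← hgen, finrank_chart φ hU]
  exact (rankAtStalk_bot _ _ hbot).symm

end Fermat.Agent.S26.T.H25D
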