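import Mathlib
import Fermat.Agent.S26.T.Defs
import Fermat.Agent.S26.T.DefsB
import Fermat.Agent.S26.T.H52_FFMap
import Fermat.Agent.S26.H52_TCore

/-!
# S26 (T): assembly ASM1 — `Stmt_TGEN` from the leaves (helper52)
-/

set_option autoImplicit false
set_option linter.style.haveILetI false
set_option linter.unusedSectionVars false

open CategoryTheory CategoryTheory.Limits AlgebraicGeometry NeronModelInfra GoodReductionJacobian

universe u

namespace Fermat.Agent.S26.T.H52

open Fermat.Agent.S26.H52 Module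

/-- `ord` of a product of possibly zero functions which are both `≥ 0`. -/
theorem ord_mul_nonneg {X : Scheme.{u}} [IsIntegral X] [IsLocallyNoetherian X]
    {a b : X.functionField} {z : X} (ha : 0 ≤ Scheme.ord a z) (hb : 0 ≤ Scheme.ord b z) :
    0 ≤ Scheme.ord (a * b) z := by
  by_cases ha0 : a = 0
  · subst ha0
    simp
  by_cases hb0 : b = 0
  · subst hb0
    simp
  rw [Scheme.ord_mul ha0 hb0]
  omega

set_option maxHeartbeats 1600000 in
/-- **ASM1**: the trace bounds for a finite étale dominant morphism, from the leaves. -/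
theorem stmt_TGEN_of (hFINB : Stmt_FINB.{u}) (hUNIF : Stmt_UNIF.{u}) (hHART : Stmt_HART.{u})
    (hCOH : Stmt_COH.{u}) (hORDE : Stmt_ORDE.{u}) (hLOCFIN : Stmt_LOCFIN.{u})
    (hGLOB : Stmt_GLOB.{u}) (hORD1 : Stmt_ORD1.{u}) (hREG : Stmt_REG.{u})
    (hLIN : Stmt_LIN.{u}) : Stmt_TGEN.{u} := by
  intro K _ X Y fY _ _ _ _ _ _ φ _ _ hφ hnX hnY U hU hne hfin
  classical
  letI aKF : Algebra K Y.functionField := (constHom fY).toAlgebra
  letI aKE : Algebra K X.functionField := (constHom (φ ≫ fY)).toAlgebra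
  letI aFE : Algebra Y.functionField X.functionField := (ffMap φ hφ).toAlgebra
  haveI tower : IsScalarTower K Y.functionField X.functionField :=
    IsScalarTower.of_algebraMap_eq (fun c => (ffMap_constHom fY φ hφ c).symm)
  haveI : Nonempty U := hne
  haveI hneV : Nonempty (φ ⁻¹ᵁ U) := nonempty_preimage φ hφ U
  have hVaff : IsAffineOpen (φ ⁻¹ᵁ U) := hU.preimage φ
  have hsmul : ∀ (f : Y.functionField) (x : X.functionField), f • x = ffMap φ hφ f * x :=
    fun f x => rfl
  have hamap : ∀ f : Y.functionField, algebraMap Y.functionField X.functionField f =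
      ffMap φ hφ f := fun f => rfl
  -- the boundary divisors
  haveI finι : Finite {z : Y // Order.coheight z = 1 ∧ z ∉ U} := (hFINB U hne).to_subtype
  haveI finκ : Finite {z' : X // Order.coheight z' = 1 ∧ z' ∉ φ ⁻¹ᵁ U} :=
    (hFINB (φ ⁻¹ᵁ U) hneV).to_subtype
  -- the spaces
  choose LF hLF using fun m : ℤ => hLIN K fY hnY U m
  choose LE hLE using fun m : ℤ => hLIN K (φ ≫ fY) hnX (φ ⁻¹ᵁ U) m
  have hcohU : ∀ z' : X, Order.coheight z' = 1 → Order.coheight (φ z') = 1 :=
    fun z' hz' => (hCOH φ hφ z').1 hz'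
  let T : TData K Y.functionField X.functionField
      {z : Y // Order.coheight z = 1 ∧ z ∉ U}
      {z' : X // Order.coheight z' = 1 ∧ z' ∉ φ ⁻¹ᵁ U} :=
    { v := fun i h => Scheme.ord h i.1
      w := fun k x => Scheme.ord x k.1
      π := fun k => ⟨φ k.1, hcohU k.1 k.2.1, k.2.2⟩
      R := {h | ∀ z : Y, Order.coheight z = 1 → z ∈ U → 0 ≤ Scheme.ord h z}
      S := {x | ∀ z' : X, Order.coheight z' = 1 → z' ∈ φ ⁻¹ᵁ U → 0 ≤ Scheme.ord x z'}
      LF := LF
      LE := LE
      hv := fun i => hORD1 i.1 i.2.1 ((hnY i.1).2 i.2.1)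
      hw := fun k => hORD1 k.1 k.2.1 ((hnX k.1).2 k.2.1)
      hcompat := fun k f hf => by
        rw [hamap]
        exact hORDE φ hφ hnX hnY k.1 k.2.1 (hcohU k.1 k.2.1) f hf
      mem_LF := fun m f => by
        rw [← SetLike.mem_coe, hLF m]
        constructor
        · rintro (rfl | h)
          · exact ⟨fun z _ _ => by simp, fun h0 => absurd rfl h0⟩
          · exact ⟨fun z hz hzU => (h z hz).1 hzU, fun _ i => (h i.1 i.2.1).2 i.2.2⟩
        · rintro ⟨h1, h2⟩
          by_cases h0 : f = 0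
          · exact Or.inl h0
          · exact Or.inr fun z hz => ⟨fun hzU => h1 z hz hzU, fun hzU => h2 h0 ⟨z, hz, hzU⟩⟩
      mem_LE := fun m x => by
        rw [← SetLike.mem_coe, hLE m]
        constructor
        · rintro (rfl | h)
          · exact ⟨fun z _ _ => by simp, fun h0 => absurd rfl h0⟩
          · exact ⟨fun z hz hzU => (h z hz).1 hzU, fun _ i => (h i.1 i.2.1).2 i.2.2⟩
        · rintro ⟨h1, h2⟩
          by_cases h0 : x = 0
          · exact Or.inl h0
          · exact Or.inr fun z hz => ⟨fun hzU => h1 z hz hzU, fun hzU => h2 h0 ⟨z, hz, hzU⟩⟩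
      hRS := fun f hf x hx z' hz' hz'V => by
        rw [hsmul]
        refine ord_mul_nonneg ?_ (hx z' hz' hz'V)
        by_cases hf0 : f = 0
        · subst hf0
          simp
        · rw [hORDE φ hφ hnX hnY z' hz' (hcohU z' hz') f hf0]
          exact hf (φ z') (hcohU z' hz') hz'V }
  -- the basis
  obtain ⟨d, b, h, hh0, hspan, hindep, hcoord⟩ := hGLOB φ hφ U hU
  set b' : Fin d → X.functionField := fun j => X.germToFunctionField (φ ⁻¹ᵁ U) (b j) with hb'
  have hli : LinearIndependent Y.functionField b' := by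
    rw [Fintype.linearIndependent_iff]
    intro c hc
    exact hindep c (by simpa [hsmul] using hc)
  have hsp : ⊤ ≤ Submodule.span Y.functionField (Set.range b') := by
    intro x _
    obtain ⟨c, hc⟩ := hspan x
    rw [hc]
    refine Submodule.sum_mem _ fun j _ => ?_
    rw [← hsmul]
    exact Submodule.smul_mem _ _ (Submodule.subset_span ⟨j, rfl⟩)
  let B : Basis (Fin d) Y.functionField X.functionField := Basis.mk hli hsp
  have hB : ∀ j, B j = b' j := fun j => by simp [B]
  have hsum : ∀ x : X.functionField, x = ∑ j, ffMap φ hφ (B.repr x j) * b' j := by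
    intro x
    conv_lhs => rw [← B.sum_repr x]
    refine Finset.sum_congr rfl fun j _ => ?_
    rw [hsmul, hB]
  have hRmem : ∀ s : Γ(Y, U), Y.germToFunctionField U s ∈ T.R :=
    fun s z _ hzU => hREG U s z hzU
  have hSmem : ∀ s : Γ(X, φ ⁻¹ᵁ U), X.germToFunctionField (φ ⁻¹ᵁ U) s ∈ T.S :=
    fun s z _ hzU => hREG (φ ⁻¹ᵁ U) s z hzU
  have hh0' : Y.germToFunctionField U h ≠ 0 := by
    intro h0
    apply hh0
    apply Y.germToFunctionField_injective U
    rw [h0, map_zero]
  obtain ⟨m₀, m₁, hm⟩ := trace_bounds T B (fun j => by rw [hB]; exact hSmem (b j))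
    (Y.germToFunctionField U h) hh0'
    (fun x hx j => by
      obtain ⟨s, rfl⟩ := hHART hnX (φ ⁻¹ᵁ U) hVaff x hx
      obtain ⟨r, hr⟩ := hcoord s (fun j => B.repr _ j) (hsum _) j
      rw [← hr]
      exact hRmem r)
    (fun i => by
      obtain ⟨C, hC⟩ := hLOCFIN φ hφ hnX hnY i.1 i.2.1 d b' hindep
      refine ⟨C, fun y _ hy j hj => ?_⟩
      refine hC (fun j => B.repr y j) (fun z' hz' hzi => ?_) j hj
      rw [← hsum y]
      have hz'V : z' ∉ φ ⁻¹ᵁ U := fun hmem => i.2.2 (hzi ▸ hmem)
      exact hy ⟨z', hz', hz'V⟩ (Subtype.ext hzi))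
    (fun i => hUNIF i.1 i.2.1 ((hnY i.1).2 i.2.1))
    (fun m => by
      have e : Submodule.span K (LU U m) = LF m := by
        rw [← hLF m, Submodule.span_eq]
      change Module.Finite K (LF m)
      rw [← e]
      exact hfin m)
  have hellU : ∀ m : ℤ, ell fY U m = finrank K (LF m) := by
    intro m
    unfold ell
    rw [← hLF m, Submodule.span_eq]
  have hellV : ∀ m : ℤ, ell (φ ≫ fY) (φ ⁻¹ᵁ U) m = finrank K (LE m) := by
    intro m
    unfold ell
    rw [← hLE m, Submodule.span_eq]
  have hd : finrank Y.functionField X.functionField = Fintype.card (Fin d) :=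
    Module.finrank_eq_card_basis B
  refine ⟨m₀, m₁, fun m => ?_⟩
  rw [hd, hellU, hellU, hellV]
  refine ⟨?_, (hm m).2.2⟩
  have := (hm (m - m₀)).2.1
  rwa [sub_add_cancel] at this

end Fermat.Agent.S26.T.H52
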