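import Mathlib
import Fermat.Agent.S26.T.Defs
import Fermat.Agent.S26.T.H52_FFMap
import Fermat.Agent.S26.E.Defs

/-!
# S26 (T): assembly ASM2 — `Stmt_T` from `Stmt_TGEN`, (E), NOR, FIN, DEG (helper52)
-/

set_option autoImplicit false
set_option linter.style.haveILetI false
set_option linter.unusedSectionVars false

open CategoryTheory CategoryTheory.Limits AlgebraicGeometry NeronModelInfra GoodReductionJacobian

universe u

namespace Fermat.Agent.S26.T.H52

/-- **ASM2**: `Stmt_T` (the case `φ = [n]`) from the general bounds and the package (E). -/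
theorem stmt_T_of (hTGEN : Stmt_TGEN.{u}) (hNOR : Stmt_NOR.{u}) (hFIN : Stmt_FIN.{u})
    (hDEG : Stmt_DEG.{u}) (hET : E.Stmt_E_ETALE.{u}) (hEF : E.Stmt_E_FIN.{u})
    (hES : E.Stmt_E_SURJ.{u}) (hEC : E.Stmt_E_COUNT.{u}) : Stmt_T.{u} := by
  intro K _ _ A f L hc hA g _ _ _ U hU n hn
  have hAV : E.IsAV K f L := ⟨inferInstance, hc, hA⟩
  haveI : Etale (L.schemeNsmul n) := hET K f L hAV n hn
  haveI : IsFinite (L.schemeNsmul n) := hEF K f L hAV n hn
  haveI : Surjective (L.schemeNsmul n) := hES K f L hAV n hn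
  haveI : IsProper f := hA.proper
  haveI : CompactSpace A := QuasiCompact.compactSpace_of_compactSpace f
  have hφ : IsDom (L.schemeNsmul n) := isDom_of_surjective _
  have hnor : IsNor A := fun z => hNOR K f L hA z
  have hne : Nonempty U :=
    ⟨⟨(zeroHom L).base (Classical.arbitrary _), hU.zero_mem _⟩⟩
  obtain ⟨m₀, m₁, h⟩ := hTGEN K f (L.schemeNsmul n) hφ hnor hnor U hU.affine hne
    (fun m => hFIN K f L hc hA U hU m)
  refine ⟨m₀, m₁, fun m => ?_⟩
  have h1 := h (m : ℤ)
  have hdeg := hDEG (L.schemeNsmul n) hφ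
  have hcount := hEC K f L hAV n hn (genericPoint A)
  have hd : torsCard L n = (L.schemeNsmul n).finrank (genericPoint A) := hcount
  rw [hdeg, ← hd, L.schemeNsmul_over n] at h1
  exact h1

/-- `LU U m` grows with `m`. -/
theorem LU_subset {X : Scheme.{u}} [IsIntegral X] [IsLocallyNoetherian X] (U : X.Opens)
    {m m' : ℤ} (hm : m ≤ m') : LU U m ⊆ LU U m' := by
  rintro h (rfl | hh)
  · exact Or.inl rfl
  · exact Or.inr fun z hz => ⟨(hh z hz).1, fun hzU => le_trans (by omega) ((hh z hz).2 hzU)⟩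

/-- **FIN from G**: the growth bounds of `Stmt_G` (with `c₁ > 0`) force `L(m D_U)` to be
finite-dimensional, because `ell` is `0` for an infinite-dimensional space. -/
theorem finite_span_LU_of_G (hG : Stmt_G.{u})
    (K : Type u) [Field K] [IsAlgClosed K] {A : Scheme.{u}} (f : A ⟶ Spec (CommRingCat.of K))
    (L : RelativeGroupLaw K f) (hc : L.IsCommutative) (hA : AbelianSchemePropertyBundle K f)
    (g : ℕ) [SmoothOfRelativeDimension g f] [IsIntegral A] [IsLocallyNoetherian A]
    (U : A.Opens) (hU : IsGoodOpen L U) (m : ℤ) :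
    letI : Algebra K A.functionField := (constHom f).toAlgebra
    Module.Finite K (Submodule.span K (LU U m)) := by
  letI : Algebra K A.functionField := (constHom f).toAlgebra
  obtain ⟨c₁, c₂, hc₁, hb⟩ := hG K f L hc hA g U hU
  set m' : ℕ := max 1 m.toNat with hm'
  have h1 : 1 ≤ m' := le_max_left _ _
  have h2 : m ≤ (m' : ℤ) := by
    have : m ≤ (m.toNat : ℤ) := Int.self_le_toNat m
    have h3 : (m.toNat : ℤ) ≤ (m' : ℤ) := by exact_mod_cast le_max_right 1 m.toNat
    omega
  have hpos : (0 : ℝ) < (ell f U (m' : ℤ) : ℝ) := by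
    have hm0 : (0 : ℝ) < (m' : ℝ) := by exact_mod_cast h1
    have := (hb m' h1).1
    have hp : (0 : ℝ) < c₁ * (m' : ℝ) ^ g := mul_pos hc₁ (pow_pos hm0 g)
    linarith
  have hpos' : 0 < Module.finrank K (Submodule.span K (LU U (m' : ℤ))) := by
    have : 0 < ell f U (m' : ℤ) := by exact_mod_cast hpos
    exact this
  haveI : Module.Finite K (Submodule.span K (LU U (m' : ℤ))) :=
    Module.finite_of_finrank_pos hpos'
  exact Submodule.finiteDimensional_of_le (Submodule.span_mono (LU_subset U h2))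

/-- **ASM2 with G**: `Stmt_T` from the general bounds, the package (E), NOR, DEG and `Stmt_G`
(which gives the finite-dimensionality). -/
theorem stmt_T_of_G (hTGEN : Stmt_TGEN.{u}) (hNOR : Stmt_NOR.{u}) (hG : Stmt_G.{u})
    (hDEG : Stmt_DEG.{u}) (hET : E.Stmt_E_ETALE.{u}) (hEF : E.Stmt_E_FIN.{u})
    (hES : E.Stmt_E_SURJ.{u}) (hEC : E.Stmt_E_COUNT.{u}) : Stmt_T.{u} := by
  intro K _ _ A f L hc hA g _ _ _ U hU n hn
  have hAV : E.IsAV K f L := ⟨inferInstance, hc, hA⟩
  haveI : Etale (L.schemeNsmul n) := hET K f L hAV n hn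
  haveI : IsFinite (L.schemeNsmul n) := hEF K f L hAV n hn
  haveI : Surjective (L.schemeNsmul n) := hES K f L hAV n hn
  haveI : IsProper f := hA.proper
  haveI : CompactSpace A := QuasiCompact.compactSpace_of_compactSpace f
  have hφ : IsDom (L.schemeNsmul n) := isDom_of_surjective _
  have hnor : IsNor A := fun z => hNOR K f L hA z
  have hne : Nonempty U :=
    ⟨⟨(zeroHom L).base (Classical.arbitrary _), hU.zero_mem _⟩⟩
  obtain ⟨m₀, m₁, h⟩ := hTGEN K f (L.schemeNsmul n) hφ hnor hnor U hU.affine hne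
    (fun m => finite_span_LU_of_G hG K f L hc hA g U hU m)
  refine ⟨m₀, m₁, fun m => ?_⟩
  have h1 := h (m : ℤ)
  have hdeg := hDEG (L.schemeNsmul n) hφ
  have hcount := hEC K f L hAV n hn (genericPoint A)
  have hd : torsCard L n = (L.schemeNsmul n).finrank (genericPoint A) := hcount
  rw [hdeg, ← hd, L.schemeNsmul_over n] at h1
  exact h1

end Fermat.Agent.S26.T.H52
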