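import Mathlib
import Fermat.Agent.S26.T.Defs

/-!
# S26 (T): leaf UNIF — a uniformiser at a point of codimension one (helper52)
-/

set_option autoImplicit false
set_option linter.style.haveILetI false

open CategoryTheory AlgebraicGeometry

universe u

namespace Fermat.Agent.S26.T.H52

/-- **UNIF**: at a point of codimension one with DVR local ring there is a function of order
`1`. -/
theorem stmt_UNIF : Stmt_UNIF.{u} := by
  intro X _ _ z hz hdvr
  haveI := hdvr
  obtain ⟨ϖ, hϖ⟩ := IsDiscreteValuationRing.exists_irreducible (X.presheaf.stalk z)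
  have hϖ0 : ϖ ≠ 0 := hϖ.ne_zero
  have ht0 : algebraMap (X.presheaf.stalk z) X.functionField ϖ ≠ 0 := by
    intro h0
    apply hϖ0
    apply IsFractionRing.injective (X.presheaf.stalk z) X.functionField
    rw [h0, map_zero]
  refine ⟨algebraMap (X.presheaf.stalk z) X.functionField ϖ, ht0, ?_⟩
  rw [Scheme.ord_eq_iff hz ht0]
  have := Ring.ordFrac_irreducible (R := X.presheaf.stalk z) (K := X.functionField) hϖ
  unfold Scheme.ordHom
  rw [this]
  rfl

end Fermat.Agent.S26.T.H52
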