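import Mathlib

/-!
# S26, package (T), leaf LOCFIN: the algebra (helper83)

* `exists_den_indep` : `R` noetherian with fraction field `F`, `R → S` finite, `S → E`, `F → E`
  compatible, `b` a family of `E` linearly independent over `F`: there is `h ≠ 0` in `R` such
  that `h` times the coordinates of every element of the image of `S` in the span of `b` are in
  `R`;
* `exists_den_of_forall_prime` : `R → S` integral, `p` a prime of `R`: an element `y` of `E`
  which has a denominator outside every prime of `S` over `p` has a denominator in `R ∖ p`;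
* `mem_range_of_one_le_ordFrac` : in a discrete valuation ring, `0 ≤ ord y` implies `y` integral.
-/

set_option autoImplicit false
set_option linter.style.haveILetI false
set_option linter.unusedSectionVars false

namespace Fermat.Agent.S26.T.H83

open Module

section Den

variable {R S F E : Type*} [CommRing R] [IsNoetherianRing R] [CommRing S] [Field F] [Field E]
  [Algebra R F] [IsFractionRing R F]

/-- **Common denominator of the coordinates** with respect to a linearly independent family. -/
theorem exists_den_indep (ρ : R →+* S) (hρ : ρ.Finite) (σ : S →+* E) (ψ : F →+* E)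
    (hcomp : ∀ r : R, σ (ρ r) = ψ (algebraMap R F r))
    {d : ℕ} (b : Fin d → E)
    (hb : ∀ c : Fin d → F, ∑ j, ψ (c j) * b j = 0 → ∀ j, c j = 0) :
    ∃ h : R, h ∈ nonZeroDivisors R ∧ ∀ c : Fin d → F,
      (∃ s : S, σ s = ∑ j, ψ (c j) * b j) →
      ∀ j, ∃ a : R, algebraMap R F a = algebraMap R F h * c j := by
  classical
  letI : Algebra R S := ρ.toAlgebra
  haveI : Module.Finite R S := hρ
  haveI : IsNoetherian R S := isNoetherian_of_isNoetherianRing_of_finite R S
  have hρalg : ∀ r : R, algebraMap R S r = ρ r := fun _ => rfl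
  -- the module of pairs `(c, s)` with `σ s = ∑ ψ (c j) * b j`
  let N : Submodule R ((Fin d → F) × S) :=
    { carrier := {x | σ x.2 = ∑ j, ψ (x.1 j) * b j}
      zero_mem' := by simp
      add_mem' := by
        intro x y hx hy
        simp only [Set.mem_ofPred_eq, Prod.snd_add, Prod.fst_add, Pi.add_apply, map_add] at *
        rw [hx, hy, ← Finset.sum_add_distrib]
        exact Finset.sum_congr rfl fun j _ => by ring
      smul_mem' := by
        intro r x hx
        simp only [Set.mem_ofPred_eq, Prod.smul_snd, Prod.smul_fst, Pi.smul_apply] at *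
        rw [Algebra.smul_def, map_mul, hρalg, hcomp, hx, Finset.mul_sum]
        refine Finset.sum_congr rfl fun j _ => ?_
        rw [Algebra.smul_def, map_mul]
        ring }
  -- the second projection is injective on `N`
  let pr : N →ₗ[R] S := (LinearMap.snd R (Fin d → F) S).comp N.subtype
  have hpr : Function.Injective pr := by
    rw [← LinearMap.ker_eq_bot, LinearMap.ker_eq_bot']
    rintro ⟨⟨c, s⟩, hx⟩ h0
    have hs : s = 0 := h0
    have hx' : σ s = ∑ j, ψ (c j) * b j := hx
    rw [hs, map_zero] at hx'
    have hc := hb c hx'.symm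
    apply Subtype.ext
    show (c, s) = 0
    rw [hs]
    exact Prod.ext (funext hc) rfl
  haveI : Module.Finite R N := Module.Finite.of_injective pr hpr
  -- generators of `N`
  obtain ⟨T, hT⟩ := (Module.finite_def (R := R) (M := N)).1 inferInstance
  obtain ⟨h, hh⟩ := IsLocalization.exist_integer_multiples_of_finite (nonZeroDivisors R)
    (fun p : T × Fin d => ((p.1 : N) : (Fin d → F) × S).1 p.2)
  refine ⟨h, h.2, ?_⟩
  -- the submodule of the pairs with the required property
  let D : Submodule R N :=
    { carrier := {x | ∀ j, ∃ a : R, algebraMap R F a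
        = algebraMap R F h * ((x : (Fin d → F) × S).1 j)}
      zero_mem' := fun j => ⟨0, by simp⟩
      add_mem' := by
        intro x y hx hy j
        obtain ⟨a, ha⟩ := hx j
        obtain ⟨a', ha'⟩ := hy j
        refine ⟨a + a', ?_⟩
        rw [map_add, ha, ha']
        simp only [Submodule.coe_add, Prod.fst_add, Pi.add_apply]
        ring
      smul_mem' := by
        intro r x hx j
        obtain ⟨a, ha⟩ := hx j
        refine ⟨r * a, ?_⟩
        have e : ((r • x : N) : (Fin d → F) × S).1 j = r • ((x : (Fin d → F) × S).1 j) := rfl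
        rw [map_mul, ha, e, Algebra.smul_def]
        ring }
  have hD : (⊤ : Submodule R N) ≤ D := by
    rw [← hT, Submodule.span_le]
    intro t ht j
    obtain ⟨a, ha⟩ := hh (⟨t, ht⟩, j)
    refine ⟨a, ?_⟩
    rw [ha, Algebra.smul_def]
  intro c hc j
  obtain ⟨s, hs⟩ := hc
  exact hD (Submodule.mem_top (x := (⟨(c, s), hs⟩ : N))) j

end Den

section LyingOver

variable {R S E : Type*} [CommRing R] [CommRing S] [Field E]

/-- **Denominators outside the primes over `p`** give a denominator in `R ∖ p`. -/
theorem exists_den_of_forall_prime (ρ : R →+* S) (hρ : ρ.IsIntegral) (σ : S →+* E)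
    (p : Ideal R) [p.IsPrime] (y : E)
    (hy : ∀ q : Ideal S, q.IsPrime → q.comap ρ = p →
      ∃ s : S, s ∉ q ∧ ∃ s' : S, σ s' = σ s * y) :
    ∃ r : R, r ∉ p ∧ ∃ s' : S, σ s' = σ (ρ r) * y := by
  classical
  letI : Algebra R S := ρ.toAlgebra
  haveI : Algebra.IsIntegral R S := ⟨hρ⟩
  -- the ideal of denominators
  let I : Ideal S :=
    { carrier := {s | ∃ s' : S, σ s' = σ s * y}
      zero_mem' := ⟨0, by simp⟩
      add_mem' := by
        rintro s t ⟨s', hs⟩ ⟨t', ht⟩
        exact ⟨s' + t', by rw [map_add, map_add, hs, ht]; ring⟩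
      smul_mem' := by
        rintro a s ⟨s', hs⟩
        exact ⟨a * s', by rw [smul_eq_mul, map_mul, map_mul, hs]; ring⟩ }
  by_contra hcon
  push Not at hcon
  have hle : I.comap (algebraMap R S) ≤ p := by
    intro r hr
    by_contra hrp
    obtain ⟨s', hs'⟩ : ∃ s' : S, σ s' = σ (ρ r) * y := hr
    exact hcon r hrp s' hs'
  obtain ⟨Q, hQI, hQp, hQ⟩ := Ideal.exists_ideal_over_prime_of_isIntegral p I hle
  obtain ⟨s, hsQ, hs⟩ := hy Q hQp hQ
  exact hsQ (hQI hs)

end LyingOver

section DVR

variable {A K : Type*} [CommRing A] [IsDomain A] [IsDiscreteValuationRing A]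
  [Field K] [Algebra A K] [IsFractionRing A K]

/-- In a discrete valuation ring, an element of the fraction field of order `≥ 0` is
integral. -/
theorem mem_range_of_one_le_ordFrac [Ring.KrullDimLE 1 A] (y : K)
    (hy : 1 ≤ Ring.ordFrac A y) : y ∈ Set.range (algebraMap A K) := by
  obtain ⟨a, b, hb, rfl⟩ := IsFractionRing.div_surjective (A := A) y
  have hb0 : b ≠ 0 := nonZeroDivisors.ne_zero hb
  by_cases ha0 : a = 0
  · exact ⟨0, by simp [ha0]⟩
  have ha : a ∈ nonZeroDivisors A := mem_nonZeroDivisors_of_ne_zero ha0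
  rw [map_div₀, Ring.ordFrac_eq_ord A ha0, Ring.ordFrac_eq_ord A hb0] at hy
  have hbpos : 0 < Ring.ordMonoidWithZeroHom A b :=
    zero_lt_iff.2 (Ring.ordMonoidWithZeroHom_ne_zero hb)
  rw [one_le_div₀ hbpos, ← Ring.ord_le_iff hb ha, Ring.ord_eq_addVal, Ring.ord_eq_addVal,
    IsDiscreteValuationRing.addVal_le_iff_dvd] at hy
  obtain ⟨c, rfl⟩ := hy
  refine ⟨c, ?_⟩
  rw [map_mul]
  have : algebraMap A K b ≠ 0 := by
    simpa using (map_ne_zero_iff (algebraMap A K) (IsFractionRing.injective A K)).2 hb0
  field_simp

end DVR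

end Fermat.Agent.S26.T.H83
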