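import Mathlib
import Fermat.Agent.S26.T.Defs
import Fermat.Agent.S26.T.H52_FFMap
import Fermat.Agent.S26.T.H61_OrdB
import Fermat.Agent.S26.T.H83_LocFinAlg

/-!
# S26, package (T), leaf LOCFIN (helper83)

`φ : X ⟶ Y` finite dominant, `X`, `Y` integral locally noetherian, `X` normal in codimension
one, `z` a point of codimension one of `Y`.  For `b j` linearly independent over `K(Y)`, the
coordinates `c j` of the functions `∑ φ^*(c j) b j` without poles at the points over `z` have
poles of bounded order at `z`.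

* `ord_germ_eq_zero` : a section which does not vanish at `z` has order `0` at `z`;
* `exists_den_over` : a function without poles at the points over `z` is `s / φ^* r` with `s`
  regular on `φ⁻¹ W` and `r` regular on `W`, `r (z) ≠ 0`;
* `locfin_of_coh : Stmt_COH → Stmt_LOCFIN`.
-/

set_option autoImplicit false
set_option linter.style.haveILetI false
set_option linter.unusedSectionVars false

open CategoryTheory CategoryTheory.Limits AlgebraicGeometry

universe u

namespace Fermat.Agent.S26.T.H83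

section Ord

variable {Y : Scheme.{u}} [IsIntegral Y] [IsLocallyNoetherian Y]

/-- A section whose germ at `z` is a unit has order `0` at `z`. -/
theorem ord_germ_eq_zero {W : Y.Opens} [Nonempty W] (r : Γ(Y, W)) (z : Y) (hzW : z ∈ W)
    (hz : Order.coheight z = 1) (hr : IsUnit (Y.presheaf.germ W z hzW r)) :
    Scheme.ord (Y.germToFunctionField W r) z = 0 := by
  have hr0 : Y.germToFunctionField W r ≠ 0 := by
    intro h0
    have h1 : r = 0 := Scheme.germToFunctionField_injective Y W (by rw [h0, map_zero])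
    rw [h1, map_zero] at hr
    exact not_isUnit_zero hr
  rw [Scheme.ord_eq_iff hz hr0]
  have : Ring.KrullDimLE 1 (Y.presheaf.stalk z) := krullDimLE_of_coheight_le hz.le
  rw [← Scheme.algebraMap_germ_eq_germToFunctionField Y hzW, ofAdd_zero, WithZero.coe_one]
  exact Ring.ordFrac_of_isUnit hr

end Ord

section Main

variable {X Y : Scheme.{u}} [IsIntegral X] [IsIntegral Y] [IsLocallyNoetherian X]
  [IsLocallyNoetherian Y]

/-- The points of `φ⁻¹ W` over `z` correspond to the primes of `Γ(φ⁻¹ W)` over the prime of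
`z`. -/
theorem map_eq_of_comap_eq (φ : X ⟶ Y) {W : Y.Opens} (hW : IsAffineOpen W)
    (hV : IsAffineOpen (φ ⁻¹ᵁ W)) (z : Y) (hzW : z ∈ W) (x : X) (hx : x ∈ φ ⁻¹ᵁ W)
    (h : (hV.primeIdealOf ⟨x, hx⟩).asIdeal.comap (φ.app W).hom
      = (hW.primeIdealOf ⟨z, hzW⟩).asIdeal) :
    φ x = z := by
  have h1 := IsAffineOpen.comap_primeIdealOf_appLE (f := φ) (x := x) W hW (φ ⁻¹ᵁ W) hV le_rfl hx
  have h2 : hW.primeIdealOf ⟨φ x, hx⟩ = hW.primeIdealOf ⟨z, hzW⟩ := by
    rw [← h1]
    apply PrimeSpectrum.ext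
    rw [← h, Scheme.Hom.app_eq_appLE]
    rfl
  have h3 := congrArg hW.fromSpec h2
  rwa [hW.fromSpec_primeIdealOf, hW.fromSpec_primeIdealOf] at h3

/-- Every prime of `Γ(V)` is the prime of a point of the affine open `V`. -/
theorem exists_point_of_prime {V : X.Opens} (hV : IsAffineOpen V) (q : PrimeSpectrum Γ(X, V)) :
    ∃ x : ↥V, hV.primeIdealOf x = q :=
  (Scheme.Hom.homeomorph hV.isoSpec.hom).surjective q

/-- A function without poles at the points over `z` is `s / φ^* r` with `s` regular on `φ⁻¹ W`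
and `r` regular on `W`, `r (z) ≠ 0`. -/
theorem exists_den_over (φ : X ⟶ Y) [IsFinite φ] (hNX : IsNor X)
    {W : Y.Opens} (hW : IsAffineOpen W) [Nonempty (φ ⁻¹ᵁ W)] (z : Y) (hzW : z ∈ W)
    (hcoh : ∀ x : X, φ x = z → Order.coheight x = 1)
    (y : X.functionField)
    (hy : ∀ x : X, Order.coheight x = 1 → φ x = z → 0 ≤ Scheme.ord y x) :
    ∃ r : Γ(Y, W), r ∉ (hW.primeIdealOf ⟨z, hzW⟩).asIdeal ∧
      ∃ s' : Γ(X, φ ⁻¹ᵁ W), X.germToFunctionField (φ ⁻¹ᵁ W) s'
        = X.germToFunctionField (φ ⁻¹ᵁ W) (φ.app W r) * y := by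
  have hV : IsAffineOpen (φ ⁻¹ᵁ W) := hW.preimage φ
  have hint : (φ.app W).hom.IsIntegral :=
    RingHom.IsIntegral.of_finite (IsFinite.finite_app φ W hW)
  refine exists_den_of_forall_prime (φ.app W).hom hint (X.germToFunctionField (φ ⁻¹ᵁ W)).hom
    (hW.primeIdealOf ⟨z, hzW⟩).asIdeal y ?_
  intro q hq hqp
  obtain ⟨x, hx⟩ := exists_point_of_prime hV ⟨q, hq⟩
  have hxq : (hV.primeIdealOf x).asIdeal = q := congrArg PrimeSpectrum.asIdeal hx
  have hφx : φ x.1 = z := by
    refine map_eq_of_comap_eq φ hW hV z hzW x.1 x.2 ?_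
    rw [← hqp, ← hxq]
  have hc1 : Order.coheight x.1 = 1 := hcoh x.1 hφx
  have hdvr : IsDiscreteValuationRing (X.presheaf.stalk x.1) := (hNX x.1).2 hc1
  obtain ⟨t, ht⟩ := H61.stmt_DVRMEM x.1 hc1 hdvr y (hy x.1 hc1 hφx)
  haveI := hV.isLocalization_stalk x
  obtain ⟨⟨a, s⟩, has⟩ := IsLocalization.surj (hV.primeIdealOf x).asIdeal.primeCompl t
  refine ⟨s.1, ?_, a, ?_⟩
  · rw [← hxq]
    exact s.2
  · have h1 := congrArg (algebraMap (X.presheaf.stalk x.1) X.functionField) has
    rw [map_mul, ht, ← IsScalarTower.algebraMap_apply Γ(X, φ ⁻¹ᵁ W) (X.presheaf.stalk x.1)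
      X.functionField, ← IsScalarTower.algebraMap_apply Γ(X, φ ⁻¹ᵁ W) (X.presheaf.stalk x.1)
      X.functionField] at h1
    rw [mul_comm]
    exact h1.symm

/-- **LOCFIN** from **COH**. -/
theorem locfin_of_coh (hCOH : Stmt_COH.{u}) : Stmt_LOCFIN.{u} := by
  intro X Y _ _ _ _ φ _ _ hφ hNX _ z hz d b hb
  obtain ⟨W, hW, hzW, -⟩ := exists_isAffineOpen_mem_and_subset (x := z) (U := ⊤) trivial
  haveI : Nonempty W := ⟨⟨z, hzW⟩⟩
  haveI : Nonempty (φ ⁻¹ᵁ W) := H52.nonempty_preimage φ hφ W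
  haveI : IsNoetherianRing Γ(Y, W) := IsLocallyNoetherian.component_noetherian ⟨W, hW⟩
  haveI : IsFractionRing Γ(Y, W) Y.functionField :=
    functionField_isFractionRing_of_isAffineOpen Y W hW
  have hcoh : ∀ x : X, φ x = z → Order.coheight x = 1 := fun x hx =>
    (hCOH φ hφ x).2 (by rw [hx]; exact hz)
  obtain ⟨h, hh, hA⟩ := exists_den_indep (R := Γ(Y, W)) (S := Γ(X, φ ⁻¹ᵁ W))
    (F := Y.functionField) (E := X.functionField) (φ.app W).hom (IsFinite.finite_app φ W hW)
    (X.germToFunctionField (φ ⁻¹ᵁ W)).hom (ffMap φ hφ)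
    (fun r => (H52.ffMap_germ φ hφ W r).symm) b hb
  have hh0 : h ≠ 0 := nonZeroDivisors.ne_zero hh
  have hh0' : Y.germToFunctionField W h ≠ 0 := fun h0 =>
    hh0 (Scheme.germToFunctionField_injective Y W (by rw [h0, map_zero]))
  refine ⟨Scheme.ord (Y.germToFunctionField W h) z, fun c hc j hcj => ?_⟩
  obtain ⟨r, hrp, s', hs'⟩ := exists_den_over φ hNX hW z hzW hcoh _ hc
  -- `r` is a unit at `z`
  letI : Algebra Γ(Y, W) (Y.presheaf.stalk z) :=
    TopCat.Presheaf.algebra_section_stalk Y.presheaf ⟨z, hzW⟩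
  haveI : IsLocalization.AtPrime (Y.presheaf.stalk z) (hW.primeIdealOf ⟨z, hzW⟩).asIdeal :=
    hW.isLocalization_stalk ⟨z, hzW⟩
  have hru : IsUnit (Y.presheaf.germ W z hzW r) :=
    IsLocalization.map_units (Y.presheaf.stalk z)
      (⟨r, hrp⟩ : (hW.primeIdealOf ⟨z, hzW⟩).asIdeal.primeCompl)
  have hr0 : Y.germToFunctionField W r ≠ 0 := by
    intro h0
    have h1 : r = 0 := Scheme.germToFunctionField_injective Y W (by rw [h0, map_zero])
    rw [h1, map_zero] at hru
    exact not_isUnit_zero hru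
  have hordr : Scheme.ord (Y.germToFunctionField W r) z = 0 :=
    ord_germ_eq_zero r z hzW hz hru
  -- the coordinates of `φ^* r * y`
  obtain ⟨a, ha⟩ := hA (fun j => Y.germToFunctionField W r * c j) ⟨s', by
    rw [hs', ← H52.ffMap_germ φ hφ W r, Finset.mul_sum]
    refine Finset.sum_congr rfl fun j _ => ?_
    rw [map_mul]
    ring⟩ j
  have ha' : Y.germToFunctionField W a
      = Y.germToFunctionField W h * (Y.germToFunctionField W r * c j) := ha
  have hprod0 : Y.germToFunctionField W r * c j ≠ 0 := mul_ne_zero hr0 hcj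
  have hord : Scheme.ord (Y.germToFunctionField W a) z
      = Scheme.ord (Y.germToFunctionField W h) z
        + (Scheme.ord (Y.germToFunctionField W r) z + Scheme.ord (c j) z) := by
    rw [ha', Scheme.ord_mul hh0' hprod0, Scheme.ord_mul hr0 hcj]
  have hreg : 0 ≤ Scheme.ord (Y.germToFunctionField W a) z := H61.stmt_REG W a z hzW
  rw [hord, hordr] at hreg
  linarith

end Main

end Fermat.Agent.S26.T.H83
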