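import Mathlib
import Fermat.Agent.S26.T.Defs
import Fermat.Agent.S26.H52_TCore

/-!
# S26, package (T), leaf GLOB (helper97)

`φ : X ⟶ Y` finite dominant between integral schemes, `U ⊆ Y` affine open, `V = φ⁻¹ U`:
there are a basis `b` of `K(X)` over `K(Y)` consisting of elements of `Γ(X, V)` and a common
denominator `h ≠ 0` in `Γ(Y, U)` of the coordinates of all elements of `Γ(X, V)`.

* `glob_abs` : the statement for rings (`R → S` finite, `F = Frac R`, `E = Frac S`);
* `ffMap_germ` : `φ^*` on function fields is compatible with `φ.app U`;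
* `stmt_GLOB : Stmt_GLOB`.
-/

set_option autoImplicit false
set_option linter.style.haveILetI false

open CategoryTheory CategoryTheory.Limits AlgebraicGeometry

universe u

namespace Fermat.Agent.S26.T.H97

open Fermat.Agent.S26

/-- The abstract statement: `ψ : R → S` finite, `S` a domain, `F = Frac R`, `E = Frac S`,
`ι : F → E` compatible with `ψ`. -/
theorem glob_abs {R S F E : Type*} [CommRing R] [CommRing S] [Field F] [Field E]
    [IsDomain S] [Algebra R F] [IsFractionRing R F] [Algebra S E] [IsFractionRing S E]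
    (ψ : R →+* S) (hψ : ψ.Finite) (ι : F →+* E)
    (hcomp : ∀ r, ι (algebraMap R F r) = algebraMap S E (ψ r)) :
    ∃ (d : ℕ) (b : Fin d → S) (h : R), h ≠ 0 ∧
      (∀ x : E, ∃ c : Fin d → F, x = ∑ j, ι (c j) * algebraMap S E (b j)) ∧
      (∀ c : Fin d → F, ∑ j, ι (c j) * algebraMap S E (b j) = 0 → ∀ j, c j = 0) ∧
      ∀ (s : S) (c : Fin d → F), algebraMap S E s = ∑ j, ι (c j) * algebraMap S E (b j) →
        ∀ j, algebraMap R F h * c j ∈ Set.range (algebraMap R F) := by
  classical
  letI : Algebra R S := ψ.toAlgebra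
  letI : Algebra F E := ι.toAlgebra
  letI : Algebra R E := ((algebraMap S E).comp ψ).toAlgebra
  haveI : IsScalarTower R S E := IsScalarTower.of_algebraMap_eq' rfl
  haveI : IsScalarTower R F E := IsScalarTower.of_algebraMap_eq fun r => (hcomp r).symm
  haveI : Module.Finite R S := hψ
  haveI : IsDomain R := (IsFractionRing.injective R F).isDomain _
  haveI : Nontrivial R := inferInstance
  haveI : Algebra.IsIntegral R S := Algebra.IsIntegral.of_finite R S
  -- the image of `S` in `E`, as an `R`-submodule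
  let M : Submodule R E := LinearMap.range (IsScalarTower.toAlgHom R S E).toLinearMap
  have hM : M.FG := by
    have h1 : M = (⊤ : Submodule R S).map (IsScalarTower.toAlgHom R S E).toLinearMap :=
      LinearMap.range_eq_map _
    rw [h1]
    exact (Module.Finite.fg_top).map _
  have hmemM : ∀ s : S, algebraMap S E s ∈ M := fun s => ⟨s, rfl⟩
  -- `E` is spanned over `F` by the image of `S`
  have hspan : Submodule.span F (Set.range (algebraMap S E)) = ⊤ := by
    rw [eq_top_iff]
    rintro x -
    obtain ⟨a, t, ht, rfl⟩ := IsFractionRing.div_surjective (A := S) x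
    have ht0 : t ≠ 0 := nonZeroDivisors.ne_zero ht
    have hne : (Ideal.span {t}).comap (algebraMap R S) ≠ ⊥ :=
      Ideal.comap_ne_bot_of_integral_mem ht0 (Ideal.subset_span rfl)
        (Algebra.IsIntegral.isIntegral t)
    obtain ⟨r, hr, hr0⟩ := Submodule.exists_mem_ne_zero_of_ne_bot hne
    rw [Ideal.mem_comap, Ideal.mem_span_singleton] at hr
    obtain ⟨s', hs'⟩ := hr
    have hrF : algebraMap R F r ≠ 0 := by
      intro h0
      exact hr0 ((IsFractionRing.injective R F) (by rw [h0, map_zero]))
    have htE : algebraMap S E t ≠ 0 := by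
      intro h0
      exact ht0 ((IsFractionRing.injective S E) (by rw [h0, map_zero]))
    have hrE : algebraMap F E (algebraMap R F r) ≠ 0 := by
      intro h0
      exact hrF ((algebraMap F E).injective (by rw [h0, map_zero]))
    have hkey : algebraMap F E (algebraMap R F r) = algebraMap S E t * algebraMap S E s' := by
      rw [← IsScalarTower.algebraMap_apply R F E, IsScalarTower.algebraMap_apply R S E,
        ← map_mul, ← hs']
    have hs'E : algebraMap S E s' ≠ 0 := by
      intro h0
      apply hrE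
      rw [hkey, h0, mul_zero]
    have hx : algebraMap S E a / algebraMap S E t =
        (algebraMap R F r)⁻¹ • algebraMap S E (a * s') := by
      rw [Algebra.smul_def, map_inv₀, map_mul, hkey, div_eq_iff htE, mul_inv]
      field_simp
    rw [hx]
    exact Submodule.smul_mem _ _ (Submodule.subset_span ⟨_, rfl⟩)
  -- a finite spanning set
  obtain ⟨T, hT⟩ := (Module.Finite.fg_top : (⊤ : Submodule R S).FG)
  have hspanT : Submodule.span F ((algebraMap S E) '' (T : Set S)) = ⊤ := by
    rw [eq_top_iff, ← hspan, Submodule.span_le]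
    rintro _ ⟨s, rfl⟩
    have hs : s ∈ Submodule.span R (T : Set S) := by rw [hT]; trivial
    refine Submodule.span_induction (p := fun s _ =>
      algebraMap S E s ∈ Submodule.span F ((algebraMap S E) '' (T : Set S))) ?_ ?_ ?_ ?_ hs
    · intro t ht
      exact Submodule.subset_span ⟨t, ht, rfl⟩
    · simp
    · intro x y _ _ hx hy
      rw [map_add]
      exact Submodule.add_mem _ hx hy
    · intro r x _ hx
      have : algebraMap S E (r • x) = (algebraMap R F r) • algebraMap S E x := by
        rw [Algebra.smul_def, Algebra.smul_def, map_mul,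
          ← IsScalarTower.algebraMap_apply R S E, IsScalarTower.algebraMap_apply R F E]
      rw [this]
      exact Submodule.smul_mem _ _ hx
  haveI : FiniteDimensional F E := by
    have : (⊤ : Submodule F E).FG :=
      ⟨(T.image (algebraMap S E)), by rw [Finset.coe_image]; exact hspanT⟩
    exact ⟨this⟩
  -- a basis inside the image of `S`
  obtain ⟨B, hB, hBspan, hBli⟩ := exists_linearIndependent F (Set.range (algebraMap S E))
  have hBtop : ⊤ ≤ Submodule.span F (Set.range ((↑) : B → E)) := by
    rw [Subtype.range_coe, hBspan, hspan]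
  let b₀ : Module.Basis B F E := Module.Basis.mk hBli hBtop
  haveI : Finite B := Module.Finite.finite_basis b₀
  obtain ⟨d, ⟨e⟩⟩ := Finite.exists_equiv_fin B
  let b : Module.Basis (Fin d) F E := b₀.reindex e
  have hbmem : ∀ j, ∃ s : S, algebraMap S E s = b j := by
    intro j
    have h1 : b j = ((e.symm j : B) : E) := by
      simp [b, b₀]
    obtain ⟨s, hs⟩ := hB (e.symm j).2
    exact ⟨s, by rw [h1, hs]⟩
  choose b' hb' using hbmem
  obtain ⟨h, hh, hle⟩ := H52.exists_den_coords b M hM
  have hsum : ∀ c : Fin d → F,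
      ∑ j, ι (c j) * algebraMap S E (b' j) = ∑ j, c j • b j := by
    intro c
    refine Finset.sum_congr rfl fun j _ => ?_
    rw [hb' j, Algebra.smul_def]
    rfl
  refine ⟨d, b', h, nonZeroDivisors.ne_zero hh, ?_, ?_, ?_⟩
  · intro x
    refine ⟨fun j => b.repr x j, ?_⟩
    rw [hsum]
    exact (b.sum_repr x).symm
  · intro c hc
    rw [hsum] at hc
    exact Fintype.linearIndependent_iff.1 b.linearIndependent c hc
  · intro s c hs j
    rw [hsum] at hs
    have hrepr : b.repr (algebraMap S E s) j = c j := by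
      rw [hs, b.repr_sum_self]
    obtain ⟨r, hr⟩ := hle (hmemM s) j
    exact ⟨r, by rw [hr, hrepr]⟩

section Bridge

variable {X Y : Scheme.{u}} [IsIntegral X] [IsIntegral Y]

/-- `φ^*` on function fields is compatible with `φ.app U`. -/
theorem ffMap_germ (φ : X ⟶ Y) (hφ : IsDom φ) (U : Y.Opens) [Nonempty U]
    [Nonempty (φ ⁻¹ᵁ U)] (r : Γ(Y, U)) :
    ffMap φ hφ (Y.germToFunctionField U r) = X.germToFunctionField (φ ⁻¹ᵁ U) (φ.app U r) := by
  have hx : genericPoint X ∈ φ ⁻¹ᵁ U :=
    ((genericPoint_spec X).mem_open_set_iff (φ ⁻¹ᵁ U).isOpen).mpr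
      (by simpa using ‹Nonempty (φ ⁻¹ᵁ U)›)
  have hy : genericPoint Y ∈ U :=
    ((genericPoint_spec Y).mem_open_set_iff U.isOpen).mpr (by simpa using ‹Nonempty U›)
  have h1 : Y.presheaf.germ U (genericPoint Y) hy ≫ Y.presheaf.stalkSpecializes hφ =
      Y.presheaf.germ U (φ (genericPoint X)) hx :=
    Y.presheaf.germ_stalkSpecializes _ _
  have h2 : Y.presheaf.germ U (φ (genericPoint X)) hx ≫ φ.stalkMap (genericPoint X) =
      φ.app U ≫ X.presheaf.germ (φ ⁻¹ᵁ U) (genericPoint X) hx :=
    Scheme.Hom.germ_stalkMap φ U (genericPoint X) hx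
  have h3 : Y.presheaf.germ U (genericPoint Y) hy ≫
      (Y.presheaf.stalkSpecializes hφ ≫ φ.stalkMap (genericPoint X)) =
      φ.app U ≫ X.presheaf.germ (φ ⁻¹ᵁ U) (genericPoint X) hx := by
    rw [← Category.assoc, h1, h2]
  exact congrArg (fun g => g.hom r) h3

/-- **GLOB**. -/
theorem stmt_GLOB : Stmt_GLOB.{u} := by
  intro X Y _ _ _ _ φ _ hφ U _ _ hU
  have hV : IsAffineOpen (φ ⁻¹ᵁ U) := hU.preimage φ
  haveI : IsFractionRing Γ(Y, U) Y.functionField :=
    functionField_isFractionRing_of_isAffineOpen Y U hU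
  haveI : IsFractionRing Γ(X, φ ⁻¹ᵁ U) X.functionField :=
    functionField_isFractionRing_of_isAffineOpen X (φ ⁻¹ᵁ U) hV
  haveI : IsDomain Γ(X, φ ⁻¹ᵁ U) :=
    (IsFractionRing.injective Γ(X, φ ⁻¹ᵁ U) X.functionField).isDomain _
  obtain ⟨d, b, h, hh, h1, h2, h3⟩ :=
    glob_abs (R := Γ(Y, U)) (S := Γ(X, φ ⁻¹ᵁ U)) (F := Y.functionField) (E := X.functionField)
      (φ.app U).hom (IsFinite.finite_app φ U hU) (ffMap φ hφ)
      (fun r => ffMap_germ φ hφ U r)
  exact ⟨d, b, h, hh, h1, h2, h3⟩

end Bridge

end Fermat.Agent.S26.T.H97
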