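import Mathlib
import Fermat.Agent.S26.T.DefsB

/-!
# S26 (T): leaves CONST and LIN (helper98)

* `stmt_CONST : Stmt_CONST` : nonzero constants have order `0` everywhere;
* `stmt_LIN : Stmt_LIN` : `LU U m` is a `K`-subspace of the function field;
* `luSub` : the subspace itself, with `coe_luSub`, `mem_luSub`.
-/

set_option autoImplicit false

open CategoryTheory CategoryTheory.Limits AlgebraicGeometry NeronModelInfra GoodReductionJacobian

universe u

namespace Fermat.Agent.S26.T.H98

variable {K : Type u} [Field K] {X : Scheme.{u}}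

/-- `constHom f c` is the germ of a global section. -/
theorem constHom_apply (f : X ⟶ Spec (CommRingCat.of K)) [IsIntegral X] (c : K) :
    haveI : Nonempty (⊤ : X.Opens) := ⟨⟨Classical.arbitrary X, trivial⟩⟩
    constHom f c = X.germToFunctionField ⊤
      (f.appTop.hom ((Scheme.ΓSpecIso (CommRingCat.of K)).inv.hom c)) := rfl

/-- nonzero constants are nonzero in the function field -/
theorem constHom_ne_zero (f : X ⟶ Spec (CommRingCat.of K)) [IsIntegral X] {c : K} (hc : c ≠ 0) :
    constHom f c ≠ 0 :=
  (map_ne_zero (constHom f)).mpr hc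

/-- **CONST**: nonzero constants have order `0` everywhere. -/
theorem ord_constHom (f : X ⟶ Spec (CommRingCat.of K)) [IsIntegral X] [IsLocallyNoetherian X]
    {c : K} (hc : c ≠ 0) (z : X) : Scheme.ord (constHom f c) z = 0 := by
  haveI : Nonempty (⊤ : X.Opens) := ⟨⟨Classical.arbitrary X, trivial⟩⟩
  rw [constHom_apply]
  refine Scheme.ord_of_isUnit ?_ (show z ∈ (⊤ : X.Opens) from trivial)
  exact ((hc.isUnit).map ((Scheme.ΓSpecIso (CommRingCat.of K)).inv.hom)).map f.appTop.hom

theorem stmt_CONST : Stmt_CONST.{u} := by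
  intro K _ X f _ _ c hc z
  exact ord_constHom f hc z

/-- order of a scalar multiple -/
theorem ord_constHom_mul (f : X ⟶ Spec (CommRingCat.of K)) [IsIntegral X] [IsLocallyNoetherian X]
    {c : K} (hc : c ≠ 0) {h : X.functionField} (hh : h ≠ 0) (z : X) :
    Scheme.ord (constHom f c * h) z = Scheme.ord h z := by
  rw [Scheme.ord_mul (constHom_ne_zero f hc) hh, ord_constHom f hc, zero_add]

/-- `0 ∈ LU U m` -/
theorem zero_mem_LU [IsIntegral X] [IsLocallyNoetherian X] (U : X.Opens) (m : ℤ) :
    (0 : X.functionField) ∈ LU U m := Or.inl rfl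

/-- `LU U m` is closed under addition (on a normal scheme). -/
theorem add_mem_LU [IsIntegral X] [IsLocallyNoetherian X] (hN : IsNor X) (U : X.Opens) (m : ℤ)
    {a b : X.functionField} (ha : a ∈ LU U m) (hb : b ∈ LU U m) : a + b ∈ LU U m := by
  by_cases hab : a + b = 0
  · exact Or.inl hab
  by_cases ha0 : a = 0
  · simpa [ha0] using hb
  by_cases hb0 : b = 0
  · simpa [hb0] using ha
  have ha' := ha.resolve_left ha0
  have hb' := hb.resolve_left hb0
  refine Or.inr fun z hz => ?_
  haveI : IsDiscreteValuationRing (X.presheaf.stalk z) := (hN z).2 hz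
  have hmin : min (Scheme.ord a z) (Scheme.ord b z) ≤ Scheme.ord (a + b) z :=
    Scheme.ord_add hab
  refine ⟨fun hzU => ?_, fun hzU => ?_⟩
  · exact le_trans (le_min ((ha' z hz).1 hzU) ((hb' z hz).1 hzU)) hmin
  · exact le_trans (le_min ((ha' z hz).2 hzU) ((hb' z hz).2 hzU)) hmin

/-- `LU U m` is closed under multiplication by constants. -/
theorem constHom_mul_mem_LU (f : X ⟶ Spec (CommRingCat.of K)) [IsIntegral X]
    [IsLocallyNoetherian X] (U : X.Opens) (m : ℤ) (c : K)
    {a : X.functionField} (ha : a ∈ LU U m) : constHom f c * a ∈ LU U m := by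
  by_cases hc : c = 0
  · left; simp [hc]
  by_cases ha0 : a = 0
  · left; simp [ha0]
  have ha' := ha.resolve_left ha0
  refine Or.inr fun z hz => ?_
  rw [ord_constHom_mul f hc ha0]
  exact ha' z hz

/-- The `K`-subspace `L(m D_U)` of the function field. -/
def luSub (f : X ⟶ Spec (CommRingCat.of K)) [IsIntegral X] [IsLocallyNoetherian X]
    (hN : IsNor X) (U : X.Opens) (m : ℤ) :
    letI : Algebra K X.functionField := (constHom f).toAlgebra
    Submodule K X.functionField :=
  letI : Algebra K X.functionField := (constHom f).toAlgebra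
  { carrier := LU U m
    add_mem' := fun ha hb => add_mem_LU hN U m ha hb
    zero_mem' := zero_mem_LU U m
    smul_mem' := fun c a ha => by
      have : c • a = constHom f c * a := Algebra.smul_def c a
      rw [this]
      exact constHom_mul_mem_LU f U m c ha }

theorem coe_luSub (f : X ⟶ Spec (CommRingCat.of K)) [IsIntegral X] [IsLocallyNoetherian X]
    (hN : IsNor X) (U : X.Opens) (m : ℤ) :
    letI : Algebra K X.functionField := (constHom f).toAlgebra
    ((luSub f hN U m : Submodule K X.functionField) : Set X.functionField) = LU U m := rfl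

theorem mem_luSub (f : X ⟶ Spec (CommRingCat.of K)) [IsIntegral X] [IsLocallyNoetherian X]
    (hN : IsNor X) (U : X.Opens) (m : ℤ) (h : X.functionField) :
    letI : Algebra K X.functionField := (constHom f).toAlgebra
    h ∈ luSub f hN U m ↔ h ∈ LU U m := Iff.rfl

/-- the span of `LU U m` is `LU U m` itself -/
theorem span_LU (f : X ⟶ Spec (CommRingCat.of K)) [IsIntegral X] [IsLocallyNoetherian X]
    (hN : IsNor X) (U : X.Opens) (m : ℤ) :
    letI : Algebra K X.functionField := (constHom f).toAlgebra
    Submodule.span K (LU U m) = luSub f hN U m := by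
  letI : Algebra K X.functionField := (constHom f).toAlgebra
  rw [← coe_luSub f hN U m]
  exact Submodule.span_eq _

/-- `ell` is the dimension of `luSub` -/
theorem ell_eq_finrank_luSub (f : X ⟶ Spec (CommRingCat.of K)) [IsIntegral X]
    [IsLocallyNoetherian X] (hN : IsNor X) (U : X.Opens) (m : ℤ) :
    letI : Algebra K X.functionField := (constHom f).toAlgebra
    ell f U m = Module.finrank K (luSub f hN U m) := by
  letI : Algebra K X.functionField := (constHom f).toAlgebra
  unfold ell
  rw [span_LU f hN U m]

/-- monotonicity of `LU` in `m` -/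
theorem LU_mono [IsIntegral X] [IsLocallyNoetherian X] (U : X.Opens) {m m' : ℤ} (hm : m ≤ m') :
    LU U m ⊆ LU U m' := by
  rintro h (h0 | hh)
  · exact Or.inl h0
  · exact Or.inr fun z hz => ⟨(hh z hz).1, fun hzU => le_trans (by omega) ((hh z hz).2 hzU)⟩

theorem stmt_LIN : Stmt_LIN.{u} := by
  intro K _ X f _ _ hN U m
  exact ⟨luSub f hN U m, coe_luSub f hN U m⟩

end Fermat.Agent.S26.T.H98
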