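import Mathlib
import Fermat.Agent.S26.T.H52_Asm
import Fermat.Agent.S26.T.H52_Asm2
import Fermat.Agent.S26.T.H52_Unif
import Fermat.Agent.S26.T.H25_FinB
import Fermat.Agent.S26.T.H25_Deg
import Fermat.Agent.S26.T.H69_Coh
import Fermat.Agent.S26.T.H55_OrdE
import Fermat.Agent.S26.T.H83_LocFin
import Fermat.Agent.S26.T.H85_Hart
import Fermat.Agent.S26.T.H97_Glob
import Fermat.Agent.S26.T.H61_OrdB
import Fermat.Agent.S26.T.H98_ConstLin
import Fermat.Agent.S26.E.H14_Top
import Fermat.Agent.S26.H39_Nor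

/-!
# S26 (T): final wiring (helper52)

`stmt_T_of_G'`: `Stmt_T` from `Stmt_G` of package (G) (which contains the
finite-dimensionality); `stmt_T_of_FIN`: from `Stmt_FIN` alone; all leaves are plugged:
HART (helper85, helper67, helper90),
FINB (helper25), UNIF (helper52), COH (helper69), ORDE (helper55), LOCFIN (helper83),
GLOB (helper97), DEG (helper25), ORD1/REG (helper61), LIN (helper98), E (helper14, helper80,
helper95), NOR (helper39).
-/

set_option autoImplicit false

open CategoryTheory CategoryTheory.Limits AlgebraicGeometry NeronModelInfra GoodReductionJacobian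

universe u

namespace Fermat.Agent.S26.T.H52

/-- `Stmt_TGEN` from the open leaf HART. -/
theorem stmt_TGEN_of_open (hHART : Stmt_HART.{u}) : Stmt_TGEN.{u} :=
  stmt_TGEN_of H25.stmt_FINB stmt_UNIF hHART H69.stmt_COH H55.stmt_ORDE
    (H83.locfin_of_coh H69.stmt_COH) H97.stmt_GLOB H61.stmt_ORD1 H61.stmt_REG H98.stmt_LIN

/-- `Stmt_T` from the open leaf HART (finite-dimensionality as `Stmt_FIN`). -/
theorem stmt_T_of_open (hHART : Stmt_HART.{u}) (hFIN : Stmt_FIN.{u}) : Stmt_T.{u} :=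
  stmt_T_of (stmt_TGEN_of_open hHART) H39.stmt_NOR hFIN H25D.stmt_DEG
    E.H14.stmt_E_ETALE E.H14.stmt_E_FIN E.H14.stmt_E_SURJ E.H14.stmt_E_COUNT

/-- `Stmt_T` from the open leaf HART and `Stmt_G` (which contains the finite-dimensionality). -/
theorem stmt_T_of_open_G (hHART : Stmt_HART.{u}) (hG : Stmt_G.{u}) : Stmt_T.{u} :=
  stmt_T_of_G (stmt_TGEN_of_open hHART) H39.stmt_NOR hG H25D.stmt_DEG
    E.H14.stmt_E_ETALE E.H14.stmt_E_FIN E.H14.stmt_E_SURJ E.H14.stmt_E_COUNT

/-- `Stmt_TGEN`, unconditional. -/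
theorem stmt_TGEN : Stmt_TGEN.{u} := stmt_TGEN_of_open H85.stmt_HART

/-- **(T)**: `Stmt_T` from `Stmt_G` (which contains the finite-dimensionality of `L(m D_U)`);
all leaves of the package (T) are plugged. -/
theorem stmt_T_of_G' (hG : Stmt_G.{u}) : Stmt_T.{u} := stmt_T_of_open_G H85.stmt_HART hG

/-- **(T)** from the finite-dimensionality `Stmt_FIN` alone. -/
theorem stmt_T_of_FIN (hFIN : Stmt_FIN.{u}) : Stmt_T.{u} := stmt_T_of_open H85.stmt_HART hFIN

end Fermat.Agent.S26.T.H52
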