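import Mathlib
import Fermat.Agent.S26.H52_TCore

/-!
# S26 (T): the algebra of local finiteness (LOCFIN-ALG, helper52)

Pure commutative algebra (Mathlib + `H52_TCore`).

* `exists_den_notMem_of_forall_liesOver` : `S` integral over `R`, `p` a prime of `R`, `y` an
  element of an `S`-algebra `E` which is "regular at every prime `q` of `S` over `p`"
  (`s y ∈ S` for some `s ∉ q`): then `r y ∈ S` for some `r ∈ R ∖ p` (lying over).
* `coords_bounded_of_liesOver` : if moreover `S` is a finite `R`-module, `F = Frac R`,
  `E ⊇ F` a field, `b` a finite linearly independent family of `E` over `F`: there is `h ≠ 0`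
  in `R` such that for every such `y = ∑ c j • b j` all `h * r * c j` are in `R` for some
  `r ∈ R ∖ p` (depending on `y`).
-/

set_option autoImplicit false
set_option linter.style.haveILetI false
set_option linter.unusedSectionVars false

namespace Fermat.Agent.S26.T.H52

open Fermat.Agent.S26.H52 Module

section LiesOver

variable {R S E : Type*} [CommRing R] [CommRing S] [CommRing E] [Algebra R S] [Algebra S E]

/-- The ideal of denominators of `y` in `S`. -/
def denIdeal (S : Type*) {E : Type*} [CommRing S] [CommRing E] [Algebra S E] (y : E) :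
    Ideal S where
  carrier := {s | ∃ a : S, algebraMap S E s * y = algebraMap S E a}
  zero_mem' := ⟨0, by simp⟩
  add_mem' := by
    rintro s t ⟨a, ha⟩ ⟨b, hb⟩
    exact ⟨a + b, by rw [map_add, add_mul, ha, hb, map_add]⟩
  smul_mem' := by
    rintro c s ⟨a, ha⟩
    exact ⟨c * a, by rw [smul_eq_mul, map_mul, mul_assoc, ha, map_mul]⟩

theorem mem_denIdeal (y : E) (s : S) :
    s ∈ denIdeal S y ↔ ∃ a : S, algebraMap S E s * y = algebraMap S E a := Iff.rfl

/-- **Lying over for denominators**: `S` integral over `R`, `p` a prime of `R`; if for every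
prime `q` of `S` over `p` there is `s ∉ q` with `s y ∈ S`, then there is `r ∈ R ∖ p` with
`r y ∈ S`. -/
theorem exists_den_notMem_of_forall_liesOver [Algebra.IsIntegral R S]
    (p : Ideal R) [p.IsPrime] (y : E)
    (h : ∀ q : Ideal S, q.IsPrime → q.comap (algebraMap R S) = p →
      ∃ s, s ∉ q ∧ ∃ a : S, algebraMap S E s * y = algebraMap S E a) :
    ∃ r, r ∉ p ∧ ∃ a : S, algebraMap S E (algebraMap R S r) * y = algebraMap S E a := by
  by_contra hcon
  have hle : (denIdeal S y).comap (algebraMap R S) ≤ p := by
    intro r hr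
    by_contra hrp
    exact hcon ⟨r, hrp, hr⟩
  obtain ⟨Q, hQ, hQp, hQc⟩ := Ideal.exists_ideal_over_prime_of_isIntegral p (denIdeal S y) hle
  obtain ⟨s, hs, hs'⟩ := h Q hQp hQc
  exact hs (hQ hs')

end LiesOver

section Coords

variable {R S F E : Type*} [CommRing R] [CommRing S] [Field F] [Field E]
  [Algebra R S] [Algebra R F] [IsFractionRing R F] [Algebra F E] [Algebra R E] [Algebra S E]
  [IsScalarTower R F E] [IsScalarTower R S E]

/-- **Bounded coordinates**: `S` a finite `R`-module, `F = Frac R`, `b` a finite `F`-basis of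
`E`: there is `h ≠ 0` in `R` such that for every prime `p` of `R` and every `y ∈ E` regular at
all primes of `S` over `p`, there is `r ∈ R ∖ p` with `h r (b.repr y j) ∈ R` for all `j`. -/
theorem coords_bounded_of_liesOver [Module.Finite R S] {J : Type*} [Finite J] (b : Basis J F E) :
    ∃ h : R, h ∈ nonZeroDivisors R ∧ ∀ (p : Ideal R) [p.IsPrime] (y : E),
      (∀ q : Ideal S, q.IsPrime → q.comap (algebraMap R S) = p →
        ∃ s, s ∉ q ∧ ∃ a : S, algebraMap S E s * y = algebraMap S E a) →
      ∃ r, r ∉ p ∧ ∀ j, ∃ c : R, algebraMap R F c = algebraMap R F (h * r) * b.repr y j := by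
  classical
  -- the image of `S` in `E` is a finitely generated `R`-submodule
  let M : Submodule R E := LinearMap.range ((Algebra.linearMap S E).restrictScalars R)
  have hM : M.FG := by
    have : (⊤ : Submodule R S).FG := Module.finite_def.1 inferInstance
    have h2 := this.map ((Algebra.linearMap S E).restrictScalars R)
    rwa [Submodule.map_top] at h2
  obtain ⟨h, hh, hle⟩ := exists_den_coords b M hM
  refine ⟨h, hh, fun p _ y hy => ?_⟩
  haveI : Algebra.IsIntegral R S := inferInstance
  obtain ⟨r, hr, a, ha⟩ := exists_den_notMem_of_forall_liesOver (S := S) p y hy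
  refine ⟨r, hr, fun j => ?_⟩
  have hmem : algebraMap S E a ∈ M := ⟨a, rfl⟩
  obtain ⟨c, hc⟩ := hle hmem j
  refine ⟨c, ?_⟩
  rw [hc, ← ha]
  have e1 : algebraMap S E (algebraMap R S r) * y = (algebraMap R F r) • y := by
    rw [← IsScalarTower.algebraMap_apply R S E, IsScalarTower.algebraMap_apply R F E,
      Algebra.smul_def]
  rw [e1, map_smul, Finsupp.smul_apply, smul_eq_mul, map_mul]
  ring

end Coords

end Fermat.Agent.S26.T.H52
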