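import Mathlib
import Fermat.Agent.S26.T.Defs

/-!
# S26, package (T), leaf UNIF (helper61)

A uniformiser at a point of codimension one whose local ring is a discrete valuation ring.
-/

set_option autoImplicit false

open CategoryTheory CategoryTheory.Limits AlgebraicGeometry

universe u

namespace Fermat.Agent.S26.T.H61

/-- **UNIF**. -/
theorem stmt_UNIF : Stmt_UNIF.{u} := by
  intro X _ _ z hz hdvr
  have := hdvr
  obtain ⟨ϖ, hϖ⟩ := IsDiscreteValuationRing.exists_irreducible (X.presheaf.stalk z)
  have hne : algebraMap (X.presheaf.stalk z) X.functionField ϖ ≠ 0 := by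
    intro h0
    apply hϖ.ne_zero
    exact (IsFractionRing.injective (X.presheaf.stalk z) X.functionField) (by rw [h0, map_zero])
  refine ⟨algebraMap (X.presheaf.stalk z) X.functionField ϖ, hne, ?_⟩
  rw [Scheme.ord_eq_iff hz hne]
  unfold Scheme.ordHom
  rw [Ring.ordFrac_irreducible hϖ]
  rfl

end Fermat.Agent.S26.T.H61
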