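import Mathlib

/-!
# S26, package (T), leaf HART-ALG (helper67): algebraic Hartogs

For a noetherian integrally closed domain `R` with fraction field `K`: an element `x : K` which
lies in the localisation `R_p` for every prime `p` of height one lies in `R`
(Matsumura, Theorem 11.5).  Pure Mathlib.

Proof: if `x ∉ R`, a maximal element among the denominator ideals `(R : y x)`, `y x ∉ R`, is a
prime `P = (R : x')`.  If `P x' ⊆ P` then `x'` is integral over `R` (Cayley–Hamilton), so
`x' ∈ R`; hence some `π ∈ P` has `π x' = s ∉ P`, and then `s P ⊆ π R`, so `P` is minimal over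
`π R` and has height one by Krull's principal ideal theorem.  But then `x ∈ R_P` gives `b ∉ P`
with `b x ∈ R`, so `b ∈ P`.
-/

set_option autoImplicit false

namespace Fermat.Agent.S26.T.H67

variable {R K : Type*} [CommRing R] [Field K] [Algebra R K]

/-- The denominator ideal `(R : x) = {r | r x ∈ R}` of `x : K`. -/
def denIdeal (R : Type*) {K : Type*} [CommRing R] [Field K] [Algebra R K] (x : K) : Ideal R where
  carrier := {r | algebraMap R K r * x ∈ Set.range (algebraMap R K)}
  add_mem' := by
    rintro a b ⟨a', ha⟩ ⟨b', hb⟩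
    exact ⟨a' + b', by rw [map_add, map_add, add_mul, ha, hb]⟩
  zero_mem' := ⟨0, by simp⟩
  smul_mem' := by
    rintro c a ⟨a', ha⟩
    exact ⟨c * a', by rw [smul_eq_mul, map_mul, map_mul, mul_assoc, ha]⟩

theorem mem_denIdeal {x : K} {r : R} :
    r ∈ denIdeal R x ↔ ∃ a : R, algebraMap R K a = algebraMap R K r * x := Iff.rfl

theorem denIdeal_eq_top_iff {x : K} :
    denIdeal R x = ⊤ ↔ x ∈ Set.range (algebraMap R K) := by
  rw [Ideal.eq_top_iff_one, mem_denIdeal]
  simp only [map_one, one_mul, Set.mem_range]

theorem denIdeal_le_smul (x : K) (y : R) :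
    denIdeal R x ≤ denIdeal R (algebraMap R K y * x) := by
  rintro r ⟨a, ha⟩
  exact ⟨y * a, by rw [map_mul, ha]; ring⟩

theorem mul_mem_denIdeal_iff {x : K} {r y : R} :
    r * y ∈ denIdeal R x ↔ r ∈ denIdeal R (algebraMap R K y * x) := by
  rw [mem_denIdeal, mem_denIdeal]
  simp only [map_mul, mul_assoc]

/-- Among the denominator ideals of the multiples of `x ∉ R` there is a prime one. -/
theorem exists_denIdeal_isPrime [IsNoetherianRing R] {x : K}
    (hx : x ∉ Set.range (algebraMap R K)) :
    ∃ y : R, (denIdeal R (algebraMap R K y * x)).IsPrime := by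
  classical
  let S : Set (Ideal R) :=
    {I | ∃ y : R, algebraMap R K y * x ∉ Set.range (algebraMap R K) ∧
      I = denIdeal R (algebraMap R K y * x)}
  have hS : S.Nonempty := ⟨_, 1, by simpa using hx, rfl⟩
  obtain ⟨P, ⟨y, hy, rfl⟩, hmax⟩ :=
    (set_has_maximal_iff_noetherian (R := R) (M := R)).mpr inferInstance S hS
  refine ⟨y, ?_⟩
  rw [Ideal.isPrime_iff]
  refine ⟨fun h => hy (denIdeal_eq_top_iff.mp h), ?_⟩
  intro a b hab
  by_contra hcon
  rw [not_or] at hcon
  obtain ⟨ha, hb⟩ := hcon
  -- `b x' ∉ R`, and its denominator ideal contains `P` and `a`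
  have hb' : algebraMap R K (b * y) * x ∉ Set.range (algebraMap R K) := by
    intro h
    apply hb
    obtain ⟨c, hc⟩ := h
    exact ⟨c, by rw [hc, map_mul]; ring⟩
  have hmem : denIdeal R (algebraMap R K (b * y) * x) ∈ S := ⟨b * y, hb', rfl⟩
  have hle : denIdeal R (algebraMap R K y * x) ≤ denIdeal R (algebraMap R K (b * y) * x) := by
    have := denIdeal_le_smul (R := R) (algebraMap R K y * x) b
    rwa [← mul_assoc, ← map_mul] at this
  have ha' : a ∈ denIdeal R (algebraMap R K (b * y) * x) := by
    have := (mul_mem_denIdeal_iff (R := R) (x := algebraMap R K y * x) (r := a) (y := b)).mp hab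
    rwa [← mul_assoc, ← map_mul] at this
  exact hmax _ hmem (lt_of_le_of_ne hle (fun h => ha (h ▸ ha')))

variable [IsDomain R] [IsFractionRing R K]

theorem denIdeal_ne_bot (x : K) : denIdeal R x ≠ ⊥ := by
  obtain ⟨a, b, hb, rfl⟩ := IsFractionRing.div_surjective (A := R) x
  have hb0 : b ≠ 0 := nonZeroDivisors.ne_zero hb
  have hb' : algebraMap R K b ≠ 0 := by
    simpa using (IsFractionRing.injective R K).ne hb0
  intro h
  have : b ∈ denIdeal R (algebraMap R K a / algebraMap R K b) :=
    ⟨a, by field_simp⟩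
  rw [h, Ideal.mem_bot] at this
  exact hb0 this

/-- A prime denominator ideal in a noetherian integrally closed domain has height one. -/
theorem height_denIdeal_eq_one [IsNoetherianRing R] [IsIntegrallyClosed R] {x : K}
    (hP : (denIdeal R x).IsPrime) : (denIdeal R x).height = 1 := by
  classical
  set P := denIdeal R x with hPdef
  have hinj := IsFractionRing.injective R K
  have hx : x ∉ Set.range (algebraMap R K) := fun h => hP.ne_top (denIdeal_eq_top_iff.mpr h)
  -- step (a): some `π ∈ P` has `π x = s ∉ P`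
  have hstep : ∃ π ∈ P, ∃ s : R, s ∉ P ∧ algebraMap R K s = algebraMap R K π * x := by
    by_contra hcon
    simp only [not_exists, not_and] at hcon
    apply hx
    let N : Submodule R K := Submodule.map (Algebra.linearMap R K) P
    have hN : N ≠ ⊥ := by
      intro h
      apply denIdeal_ne_bot (R := R) x
      rw [eq_bot_iff]
      intro r hr
      have hr' : algebraMap R K r ∈ N := ⟨r, hr, rfl⟩
      rw [h, Submodule.mem_bot] at hr'
      rw [Ideal.mem_bot]
      exact hinj (by rw [hr', map_zero])
    have hN' : N.FG := Submodule.FG.map _ (IsNoetherian.noetherian P)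
    have hstab : ∀ n ∈ N, x • n ∈ N := by
      rintro n ⟨r, hr, rfl⟩
      obtain ⟨s, hs⟩ := (mem_denIdeal (R := R)).mp hr
      have hsP : s ∈ P := by
        by_contra hsn
        exact hcon r hr s hsn hs
      refine ⟨s, hsP, ?_⟩
      simp only [Algebra.linearMap_apply, smul_eq_mul]
      rw [hs, mul_comm]
    have hint : IsIntegral R x := isIntegral_of_smul_mem_submodule N hN hN' x hstab
    obtain ⟨y, hy⟩ := IsIntegrallyClosed.isIntegral_iff.mp hint
    exact ⟨y, hy⟩
  obtain ⟨π, hπ, s, hs, hsπ⟩ := hstep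
  -- step (b): `P` is minimal over `(π)`
  have hmin : P ∈ (Ideal.span {π}).minimalPrimes := by
    refine ⟨⟨hP, (Ideal.span_singleton_le_iff_mem P).mpr hπ⟩, ?_⟩
    rintro Q ⟨hQ, hπQ⟩ hQP r hr
    obtain ⟨t, ht⟩ := (mem_denIdeal (R := R)).mp hr
    have hsr : s * r = π * t := by
      apply hinj
      rw [map_mul, map_mul, hsπ, ht]
      ring
    have hmem : s * r ∈ Q := by
      rw [hsr]
      exact Q.mul_mem_right t ((Ideal.span_singleton_le_iff_mem Q).mp hπQ)
    rcases hQ.mem_or_mem hmem with h | h
    · exact absurd (hQP h) hs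
    · exact h
  have hle : P.height ≤ 1 :=
    Ideal.height_le_one_of_isPrincipal_of_mem_minimalPrimes (Ideal.span {π}) P hmin
  have hne : P.height ≠ 0 := by
    rw [Ne, Ideal.height_eq_zero_iff_eq_bot]
    exact denIdeal_ne_bot x
  exact le_antisymm hle (Order.one_le_iff_pos.mpr (pos_iff_ne_zero.mpr hne))

/-- **HART-ALG** (algebraic Hartogs, Matsumura 11.5): in a noetherian integrally closed domain
`R` with fraction field `K`, an element of `K` that lies in `R_p` for every prime `p` of height
one lies in `R`. -/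
theorem hartogs_alg [IsNoetherianRing R] [IsIntegrallyClosed R] (x : K)
    (h : ∀ p : Ideal R, p.IsPrime → p.height = 1 →
      ∃ a b : R, b ∉ p ∧ x * algebraMap R K b = algebraMap R K a) :
    x ∈ Set.range (algebraMap R K) := by
  by_contra hx
  obtain ⟨y, hP⟩ := exists_denIdeal_isPrime (R := R) hx
  obtain ⟨a, b, hb, hab⟩ := h _ hP (height_denIdeal_eq_one hP)
  apply hb
  refine ⟨y * a, ?_⟩
  rw [map_mul, ← hab]
  ring

end Fermat.Agent.S26.T.H67
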