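import Mathlib
import Fermat.Agent.S26.T.H52_LocFinAlg

/-!
# S26 (T), LOCFIN: bounded coordinates for a linearly independent family (helper97)

Pure commutative algebra (Mathlib + `H52_LocFinAlg`).  The variant of
`H52.coords_bounded_of_liesOver` in the shape of `Stmt_LOCFIN`: the family `b` is only linearly
independent over `F = Frac R` (no basis, `E` need not be finite over `F`), and the coordinates
are the given `c j`.

* `coords_bounded_linIndep` : `S` a finite `R`-module, `b : Fin d → E` linearly independent over
  `F`: there is `h ≠ 0` in `R` such that for every prime `p` of `R` and every `c : Fin d → F`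
  with `∑ c j b j` regular at all primes of `S` over `p`, there is `r ∈ R ∖ p` with
  `h r c j ∈ R` for all `j`.
-/

set_option autoImplicit false
set_option linter.style.haveILetI false
set_option linter.unusedSectionVars false

namespace Fermat.Agent.S26.T.H97

open Module

section Coords

variable {R S F E : Type*} [CommRing R] [CommRing S] [Field F] [Field E]
  [Algebra R S] [Algebra R F] [IsFractionRing R F] [Algebra F E] [Algebra R E] [Algebra S E]
  [IsScalarTower R F E] [IsScalarTower R S E]

/-- **Bounded coordinates, linearly independent family**. -/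
theorem coords_bounded_linIndep [Module.Finite R S] (d : ℕ) (b : Fin d → E)
    (hb : ∀ c : Fin d → F, ∑ j, algebraMap F E (c j) * b j = 0 → ∀ j, c j = 0) :
    ∃ h : R, h ∈ nonZeroDivisors R ∧ ∀ (p : Ideal R) [p.IsPrime] (c : Fin d → F),
      (∀ q : Ideal S, q.IsPrime → q.comap (algebraMap R S) = p →
        ∃ s, s ∉ q ∧ ∃ a : S,
          algebraMap S E s * (∑ j, algebraMap F E (c j) * b j) = algebraMap S E a) →
      ∃ r, r ∉ p ∧ ∀ j, ∃ c' : R, algebraMap R F c' = algebraMap R F (h * r) * c j := by
  classical
  -- the map `c ↦ ∑ c j b j` and a left inverse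
  let Φ : (Fin d → F) →ₗ[F] E := Fintype.linearCombination F b
  have hΦ : ∀ c : Fin d → F, Φ c = ∑ j, algebraMap F E (c j) * b j := by
    intro c
    simp only [Φ, Fintype.linearCombination_apply, Algebra.smul_def]
  have hker : LinearMap.ker Φ = ⊥ := by
    rw [LinearMap.ker_eq_bot']
    intro c hc
    funext j
    exact hb c (by rw [← hΦ]; exact hc) j
  obtain ⟨g, hg⟩ := Φ.exists_leftInverse_of_injective hker
  have hgΦ : ∀ c, g (Φ c) = c := fun c => LinearMap.congr_fun hg c
  -- the image of `S` in `E` is a finitely generated `R`-submodule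
  let M : Submodule R E := LinearMap.range ((Algebra.linearMap S E).restrictScalars R)
  have hM : M.FG := by
    have : (⊤ : Submodule R S).FG := Module.finite_def.1 inferInstance
    have h2 := this.map ((Algebra.linearMap S E).restrictScalars R)
    rwa [Submodule.map_top] at h2
  obtain ⟨T, hT⟩ := hM
  obtain ⟨h, hh⟩ := IsLocalization.exist_integer_multiples_of_finite (nonZeroDivisors R)
    (fun t : T × Fin d => g (t.1 : E) t.2)
  -- `h` times the coordinates of every element of `M` are in `R`
  have hint : ∀ y ∈ M, ∀ j, ∃ c' : R, algebraMap R F c' = algebraMap R F h * g y j := by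
    intro y hy
    rw [← hT] at hy
    induction hy using Submodule.span_induction with
    | mem t ht =>
      intro j
      obtain ⟨c', hc'⟩ := hh (⟨t, ht⟩, j)
      exact ⟨c', by rw [hc', Algebra.smul_def]⟩
    | zero => exact fun j => ⟨0, by simp⟩
    | add x y _ _ hx hy =>
      intro j
      obtain ⟨cx, hcx⟩ := hx j
      obtain ⟨cy, hcy⟩ := hy j
      exact ⟨cx + cy, by rw [map_add, hcx, hcy, map_add, Pi.add_apply, mul_add]⟩
    | smul a x _ hx =>
      intro j
      obtain ⟨cx, hcx⟩ := hx j
      refine ⟨a * cx, ?_⟩
      have e1 : a • x = (algebraMap R F a) • x := by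
        rw [Algebra.smul_def, Algebra.smul_def, IsScalarTower.algebraMap_apply R F E]
      rw [e1, map_smul, Pi.smul_apply, smul_eq_mul, map_mul, hcx]
      ring
  refine ⟨h, h.2, fun p _ c hy => ?_⟩
  haveI : Algebra.IsIntegral R S := inferInstance
  obtain ⟨r, hr, a, ha⟩ := H52.exists_den_notMem_of_forall_liesOver (S := S) p
    (∑ j, algebraMap F E (c j) * b j) hy
  refine ⟨r, hr, fun j => ?_⟩
  have hmem : algebraMap S E a ∈ M := ⟨a, rfl⟩
  obtain ⟨c', hc'⟩ := hint _ hmem j
  refine ⟨c', ?_⟩
  rw [hc', ← ha, ← hΦ]
  have e1 : algebraMap S E (algebraMap R S r) * Φ c = (algebraMap R F r) • Φ c := by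
    rw [← IsScalarTower.algebraMap_apply R S E, IsScalarTower.algebraMap_apply R F E,
      Algebra.smul_def]
  rw [e1, map_smul, hgΦ, Pi.smul_apply, smul_eq_mul, map_mul]
  ring

end Coords

end Fermat.Agent.S26.T.H97
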